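import Fermat.Agent.DS.Eis1Exists
import Fermat.Agent.DS.Conjugates
import Fermat.Agent.DS.ComplexRep
import Fermat.Agent.DS.SystemField
import Mathlib.RingTheory.IntegralDomain
import Mathlib.FieldTheory.Finite.Basic

/-!
# The congruence between a weight one eigenform and weight two forms

For a prime `ℓ` and a place over it, `χ` is the inverse of the Teichmüller character; the product
of `f` with `2 ℓ E_{1,χ}` has weight two and is congruent to `f`.
-/

set_option autoImplicit false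

noncomputable section

namespace FLTAgent.DS

open CongruenceSubgroup UpperHalfPlane IsLocalRing
open scoped MatrixGroups ModularForm Manifold

theorem gamma1_le_of_dvd {M N : ℕ} (h : N ∣ M) : Gamma1 M ≤ Gamma1 N := by
  intro γ hγ
  rw [Gamma1_mem] at hγ ⊢
  obtain ⟨h1, h2, h3⟩ := hγ
  exact ⟨by simpa [ZMod.cast_one h] using congrArg (ZMod.castHom h (ZMod N)) h1,
    by simpa [ZMod.cast_one h] using congrArg (ZMod.castHom h (ZMod N)) h2,
    by simpa using congrArg (ZMod.castHom h (ZMod N)) h3⟩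

/-- A form on `Γ₁(N)` at a multiple of the level. -/
theorem exists_restrict {M N : ℕ} [NeZero M] [NeZero N] (h : N ∣ M) {k : ℤ}
    (f : CuspForm (Gamma1 N) k) : ∃ g : CuspForm (Gamma1 M) k, (g : ℍ → ℂ) = f :=
  ⟨cuspOfFun (Gamma1 M) k f (fun γ hγ => cuspForm_slash_gamma1 f γ (gamma1_le_of_dvd h hγ))
    (CuspFormClass.holo f) (fun a => isZeroAtImInfty_slash f a), rfl⟩

theorem not_mem_nonunits_of_prime {ℓ p : ℕ} (hℓ : ℓ.Prime) (hp : p.Prime) (hne : p ≠ ℓ)
    (A : ValuationSubring ℂ) (hA : (ℓ : ℂ) ∈ A.nonunits) : (p : ResidueField A) ≠ 0 := by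
  haveI := charP_residue hℓ hA
  rw [Ne, CharP.cast_eq_zero_iff _ ℓ]
  exact fun h => hne ((Nat.prime_dvd_prime_iff_eq hℓ hp).1 h).symm

/-- The inverse of the Teichmüller character at a place over `ℓ`. -/
theorem exists_teichInv {ℓ : ℕ} (hℓ : ℓ.Prime) (hℓ2 : ℓ ≠ 2) (A : ValuationSubring ℂ)
    (hA : (ℓ : ℂ) ∈ A.nonunits) :
    ∃ χ : DirichletCharacter ℂ ℓ, χ.Odd ∧ ∀ a : ℕ, ¬ ℓ ∣ a →
      ∃ u : A, (u : ℂ) = χ (a : ZMod ℓ) ∧ residue A u * (a : ResidueField A) = 1 := by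
  classical
  haveI : Fact ℓ.Prime := ⟨hℓ⟩
  haveI := charP_residue hℓ hA
  haveI := isAlgClosed_residue A
  set k := ResidueField A
  set m := ℓ - 1
  have hm : 0 < m := Nat.sub_pos_of_lt hℓ.one_lt
  set cast : ZMod ℓ →+* k := ZMod.castHom dvd_rfl k
  have hlift : ∀ u : (ZMod ℓ)ˣ, ∃ r : A, (r : ℂ) ^ m = 1 ∧ residue A r = cast (u⁻¹ : (ZMod ℓ)ˣ) :=
    fun u => exists_root_lift hm A (by
      rw [← map_pow, ← Units.val_pow_eq_pow_val, ZMod.units_pow_card_sub_one_eq_one, Units.val_one,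
        map_one])
  choose r hr hres using hlift
  -- residues separate the roots of unity of order prime to `ℓ`
  have hsep : ∀ x y : A, (x : ℂ) ^ m = 1 → (y : ℂ) ^ m = 1 → residue A x = residue A y → x = y := by
    intro x y hx hy hxy
    by_contra hne
    have hinj : Set.InjOn (fun z : A => residue A z)
        ↑((Polynomial.nthRootsFinset m (1 : ℂ)).attach.image fun z : {z // z ∈ Polynomial.nthRootsFinset m (1 : ℂ)} =>
          (⟨z.1, Frobenius.mem_of_isIntegral A (isIntegral_of_pow_eq_one hm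
            ((Polynomial.mem_nthRootsFinset hm 1).1 z.2))⟩ : A)) := by
      set R := (Polynomial.nthRootsFinset m (1 : ℂ)).attach.image fun z : {z // z ∈ Polynomial.nthRootsFinset m (1 : ℂ)} =>
          (⟨z.1, Frobenius.mem_of_isIntegral A (isIntegral_of_pow_eq_one hm
            ((Polynomial.mem_nthRootsFinset hm 1).1 z.2))⟩ : A) with hR
      have hsub : (Polynomial.nthRootsFinset m (1 : k)) ⊆ R.image (residue A) := by
        intro z hz
        obtain ⟨v, hv, hvz⟩ := exists_root_lift hm A ((Polynomial.mem_nthRootsFinset hm 1).1 hz)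
        refine Finset.mem_image.2 ⟨v, Finset.mem_image.2
          ⟨⟨(v : ℂ), (Polynomial.mem_nthRootsFinset hm 1).2 hv⟩, Finset.mem_attach _ _, rfl⟩, hvz⟩
      have hmk : (m : k) ≠ 0 := by
        rw [Ne, CharP.cast_eq_zero_iff k ℓ]
        exact fun h => absurd (Nat.le_of_dvd hm h) (by omega)
      haveI : NeZero (m : k) := ⟨hmk⟩
      have hk : (Polynomial.nthRootsFinset m (1 : k)).card = m :=
        (HasEnoughRootsOfUnity.exists_primitiveRoot k m).choose_spec.card_nthRootsFinset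
      have hc : (Polynomial.nthRootsFinset m (1 : ℂ)).card = m :=
        (Complex.isPrimitiveRoot_exp m hm.ne').card_nthRootsFinset
      have hle : R.card ≤ m := le_trans Finset.card_image_le (by rw [Finset.card_attach, hc])
      have hge := Finset.card_le_card hsub
      rw [hk] at hge
      exact Finset.card_image_iff.1 (le_antisymm Finset.card_image_le (hle.trans hge))
    exact hne (hinj (Finset.mem_image.2 ⟨⟨_, (Polynomial.mem_nthRootsFinset hm 1).2 hx⟩,
      Finset.mem_attach _ _, rfl⟩) (Finset.mem_image.2 ⟨⟨_, (Polynomial.mem_nthRootsFinset hm 1).2 hy⟩,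
      Finset.mem_attach _ _, rfl⟩) hxy)
  have h1 : r 1 = 1 := hsep _ _ (hr 1) (by simp) (by rw [hres, inv_one, Units.val_one, map_one, map_one])
  have hmul : ∀ u v, r (u * v) = r u * r v := fun u v =>
    hsep _ _ (hr _) (by rw [MulMemClass.coe_mul, mul_pow, hr, hr, mul_one]) (by
      rw [map_mul, hres, hres, hres, mul_inv, Units.val_mul, map_mul])
  let φ : (ZMod ℓ)ˣ →* ℂˣ := MonoidHom.toHomUnits
    { toFun := fun u => (r u : ℂ), map_one' := by rw [h1]; rfl
      map_mul' := fun u v => by rw [hmul]; rfl }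
  refine ⟨MulChar.ofUnitHom φ, ?_, fun a ha => ?_⟩
  · have hneg : r (-1) = -1 := by
      refine hsep _ _ (hr _) ?_ ?_
      · rw [show ((-1 : A) : ℂ) = -1 from rfl]
        exact (hℓ.even_sub_one hℓ2).neg_one_pow
      · rw [hres, inv_neg_one, Units.val_neg, Units.val_one, map_neg, map_neg, map_one, map_one]
    show MulChar.ofUnitHom φ (-1 : ZMod ℓ) = -1
    rw [show (-1 : ZMod ℓ) = ((-1 : (ZMod ℓ)ˣ) : ZMod ℓ) by simp, MulChar.ofUnitHom_coe]
    show ((r (-1) : A) : ℂ) = -1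
    rw [hneg]; rfl
  · set u := ZMod.unitOfCoprime a ((hℓ.coprime_iff_not_dvd.2 ha).symm)
    refine ⟨r u, ?_, ?_⟩
    · rw [show ((a : ZMod ℓ)) = ((u : (ZMod ℓ)ˣ) : ZMod ℓ) from rfl, MulChar.ofUnitHom_coe]
      rfl
    · rw [hres, ← map_natCast cast a, show ((a : ZMod ℓ)) = ((u : (ZMod ℓ)ˣ) : ZMod ℓ) from rfl,
        ← map_mul, ← Units.val_mul, inv_mul_cancel, Units.val_one, map_one]

variable {N : ℕ} [NeZero N]

/-- The weight two form congruent to `f`. -/
theorem exists_congruent_form {ℓ : ℕ} [NeZero (N * ℓ)] (hℓ : ℓ.Prime) (hℓ2 : ℓ ≠ 2)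
    (ε : DirichletCharacter ℂ N) (f : CuspForm (Gamma1 N) 1)
    (hne : ∀ γ ∈ Gamma0 N,
      (f : ℍ → ℂ) ∣[(1 : ℤ)] γ = ε ((γ 1 1 : ℤ) : ZMod N) • (f : ℍ → ℂ))
    (hint : ∀ n, IsIntegral ℤ (ModularFormClass.qCoeff f n))
    (A : ValuationSubring ℂ) (hA : (ℓ : ℂ) ∈ A.nonunits) :
    ∃ (g : CuspForm (Gamma1 (N * ℓ)) 2) (ψ : DirichletCharacter ℂ (N * ℓ)),
      (∀ γ : SL(2, ℤ), γ ∈ Gamma0 (N * ℓ) →
        ⇑g ∣[(2 : ℤ)] γ = ψ ((γ 1 1 : ℤ) : ZMod (N * ℓ)) • ⇑g) ∧
      (∀ n, ∃ x y : A, (x : ℂ) = ModularFormClass.qCoeff g n ∧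
        (y : ℂ) = ModularFormClass.qCoeff f n ∧ residue A x = residue A y) ∧
      ∀ a : ℕ, a.Coprime (N * ℓ) → ∃ x y : A, (x : ℂ) = ψ (a : ZMod (N * ℓ)) ∧
        (y : ℂ) = ε (a : ZMod N) ∧ residue A x * (a : ResidueField A) = residue A y := by
  classical
  haveI : NeZero ℓ := ⟨hℓ.ne_zero⟩
  haveI : Fact ℓ.Prime := ⟨hℓ⟩
  haveI := charP_residue hℓ hA
  obtain ⟨χ, hodd, hχ⟩ := exists_teichInv hℓ hℓ2 A hA
  obtain ⟨E, hE0, hEn, hEs⟩ := eis1Exists ℓ χ hodd
  have hdN : N ∣ N * ℓ := dvd_mul_right N ℓ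
  have hdℓ : ℓ ∣ N * ℓ := dvd_mul_left ℓ N
  set ψ := DirichletCharacter.changeLevel hdN ε * DirichletCharacter.changeLevel hdℓ χ with hψ
  have hψv : ∀ a : ℤ, IsCoprime a ((N * ℓ : ℕ) : ℤ) →
      ψ (a : ZMod (N * ℓ)) = ε (a : ZMod N) * χ (a : ZMod ℓ) := fun a ha => by
    rw [hψ, MulChar.mul_apply, DirichletCharacter.changeLevel_eq_cast_of_dvd' ε hdN ha,
      DirichletCharacter.changeLevel_eq_cast_of_dvd' χ hdℓ ha]
  have h0le : ∀ {d : ℕ}, d ∣ N * ℓ → ∀ γ ∈ Gamma0 (N * ℓ), γ ∈ Gamma0 d := fun {d} hd γ hγ =>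
    gamma0_mono hd hγ
  set G : ℍ → ℂ := (f : ℍ → ℂ) * ((2 * ℓ : ℂ) • (E : ℍ → ℂ)) with hG
  have hGs : ∀ γ : SL(2, ℤ), γ ∈ Gamma0 (N * ℓ) →
      G ∣[(2 : ℤ)] γ = ψ ((γ 1 1 : ℤ) : ZMod (N * ℓ)) • G := by
    intro γ hγ
    have hco : IsCoprime (γ 1 1 : ℤ) ((N * ℓ : ℕ) : ℤ) :=
      (ZMod.coe_int_isUnit_iff_isCoprime _ _).1 (isUnit_lowerRight hγ) |>.symm
    rw [hG, show (2 : ℤ) = 1 + 1 by norm_num, ModularForm.mul_slash_SL2, ModularForm.SL_smul_slash,
      hne γ (h0le hdN γ hγ), hEs γ (h0le hdℓ γ hγ), hψv _ hco]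
    ext τ
    simp only [Pi.mul_apply, Pi.smul_apply, smul_eq_mul]
    ring
  have hinv : ∀ γ ∈ Gamma1 (N * ℓ), G ∣[(2 : ℤ)] γ = G := fun γ hγ => by
    rw [hGs γ (Gamma1_in_Gamma0 _ hγ), ((Gamma1_mem _ γ).1 hγ).2.1, map_one, one_smul]
  have hhol : MDiff G := by
    rw [hG]
    exact (CuspFormClass.holo f).mul (MDifferentiable.const_smul _ (ModularFormClass.holo E))
  have hz : ∀ a : SL(2, ℤ), IsZeroAtImInfty (G ∣[(2 : ℤ)] a) := fun a => by
    rw [hG, show (2 : ℤ) = 1 + 1 by norm_num, ModularForm.mul_slash_SL2, ModularForm.SL_smul_slash]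
    refine Filter.ZeroAtFilter.mul_boundedAtFilter (isZeroAtImInfty_slash f a) ?_
    exact Filter.BoundedAtFilter.smul (2 * ℓ : ℂ) (ModularFormClass.bdd_at_infty_slash E a)
  set g := cuspOfFun (Gamma1 (N * ℓ)) 2 G hinv hhol hz
  refine ⟨g, ψ, hGs, ?_, ?_⟩
  · -- the Eisenstein series is congruent to one
    have hEint : ∀ n, ∃ z : A, (z : ℂ) = 2 * ℓ * ModularFormClass.qCoeff E n ∧
        residue A z = if n = 0 then 1 else 0 := by
      have hχA : ∀ a : ℕ, χ (a : ZMod ℓ) ∈ A := fun a => by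
        by_cases ha : ℓ ∣ a
        · rw [(ZMod.natCast_eq_zero_iff _ _).2 ha, MulChar.map_zero]; exact zero_mem A
        · obtain ⟨u, hu, -⟩ := hχ a ha; exact hu ▸ u.2
      intro n
      rcases Nat.eq_zero_or_pos n with rfl | hn
      · refine ⟨-∑ a ∈ Finset.range ℓ, (⟨_, hχA a⟩ : A) * (a : A), ?_, ?_⟩
        · have hℓC : (ℓ : ℂ) ≠ 0 := Nat.cast_ne_zero.2 hℓ.ne_zero
          rw [hE0]
          push_cast
          field_simp
        · rw [if_pos rfl, map_neg, map_sum]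
          obtain ⟨l, hl⟩ := Nat.exists_eq_succ_of_ne_zero hℓ.ne_zero
          rw [show Finset.range ℓ = Finset.range (l + 1) by rw [hl], Finset.sum_range_succ']
          have hterm : ∀ i ∈ Finset.range l,
              residue A ((⟨_, hχA (i + 1)⟩ : A) * ((i + 1 : ℕ) : A)) = 1 := fun i hi => by
            obtain ⟨u, hu, hu'⟩ := hχ (i + 1) (fun h => by
              have := Nat.le_of_dvd (Nat.succ_pos i) h
              rw [Finset.mem_range] at hi; omega)
            have e : (⟨_, hχA (i + 1)⟩ : A) = u := Subtype.ext hu.symm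
            rw [e, map_mul, map_natCast, hu']
          rw [Finset.sum_congr rfl hterm, Finset.sum_const, Finset.card_range]
          have h0 : ((l + 1 : ℕ) : ResidueField A) = 0 := by
            rw [show l + 1 = ℓ by omega]; exact natCast_residue_eq_zero hA
          push_cast at h0
          simp only [Nat.cast_zero, mul_zero, map_zero, add_zero, nsmul_eq_mul, mul_one]
          linear_combination -h0
      · refine ⟨2 * (ℓ : A) * ∑ d ∈ n.divisors, (⟨_, hχA d⟩ : A), ?_, ?_⟩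
        · rw [hEn n hn]; push_cast; rfl
        · rw [if_neg hn.ne', map_mul, map_mul, map_natCast, natCast_residue_eq_zero hA, mul_zero,
            zero_mul]
    choose ez hez hezr using hEint
    intro n
    refine ⟨∑ ij ∈ Finset.HasAntidiagonal.antidiagonal n,
      (⟨_, Frobenius.mem_of_isIntegral A (hint ij.1)⟩ : A) * ez ij.2,
      ⟨_, Frobenius.mem_of_isIntegral A (hint n)⟩, ?_, rfl, ?_⟩
    · have hq : qExpansion 1 ((g : ℍ → ℂ))
          = qExpansion 1 (f : ℍ → ℂ) * qExpansion 1 ((2 * ℓ : ℂ) • (E : ℍ → ℂ)) := by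
        rw [show ((g : ℍ → ℂ)) = G from rfl, hG]
        exact qExpansion_mul
          (ModularFormClass.analyticAt_cuspFunction_zero f one_pos (one_mem_strictPeriods_gamma1 N))
          (ModularFormClass.analyticAt_cuspFunction_zero ((2 * ℓ : ℂ) • E) one_pos
            (one_mem_strictPeriods_gamma1 ℓ))
      have hsm : qExpansion 1 ((2 * ℓ : ℂ) • (E : ℍ → ℂ)) = (2 * ℓ : ℂ) • qExpansion 1 (E : ℍ → ℂ) :=
        ModularForm.qExpansion_smul one_pos (one_mem_strictPeriods_gamma1 ℓ) _ E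
      show _ = (qExpansion 1 ((g : ℍ → ℂ))).coeff n
      rw [hq, hsm, PowerSeries.coeff_mul]
      push_cast
      refine Finset.sum_congr rfl fun ij _ => ?_
      rw [hez, map_smul, smul_eq_mul]
      rfl
    · rw [map_sum, Finset.sum_eq_single (n, 0)]
      · rw [map_mul, hezr, if_pos rfl, mul_one]
      · rintro ⟨i, j⟩ hij hne'
        rw [map_mul, hezr, if_neg, mul_zero]
        intro hj
        rw [Finset.HasAntidiagonal.mem_antidiagonal] at hij
        exact hne' (by ext <;> simp_all)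
      · intro h
        exact absurd (Finset.HasAntidiagonal.mem_antidiagonal.2 (add_zero n)) h
  · intro a ha
    have hco : IsCoprime (a : ℤ) ((N * ℓ : ℕ) : ℤ) := Nat.isCoprime_iff_coprime.2 ha
    have haℓ : ¬ ℓ ∣ a := fun h => hℓ.coprime_iff_not_dvd.1
      (Nat.Coprime.coprime_dvd_right hdℓ ha).symm h
    obtain ⟨u, hu, hu'⟩ := hχ a haℓ
    have hεA : ε (a : ZMod N) ∈ A := Frobenius.mem_of_isIntegral A (isIntegral_char ε _)
    refine ⟨⟨_, hεA⟩ * u, ⟨_, hεA⟩, ?_, rfl, ?_⟩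
    · have := hψv a hco
      simp only [Int.cast_natCast] at this
      rw [this, MulMemClass.coe_mul, hu]
    · rw [map_mul, mul_assoc, hu', mul_one]

end FLTAgent.DS
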