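import Fermat.Agent.DS.ModRep.Frobenius
import Mathlib.LinearAlgebra.TensorProduct.Basis

/-!
# Classes of parabolic homomorphisms, with coefficients
-/

set_option autoImplicit false

noncomputable section

namespace FLTAgent.DS

open ModularCurve AlgebraicCurve CongruenceSubgroup
open scoped MatrixGroups TensorProduct

local notation "Qbar" => AlgebraicClosure ℚ
local notation "Γℚ" => AlgebraicClosure ℚ ≃ₐ[ℚ] AlgebraicClosure ℚ

variable {M : ℕ} [NeZero M] {ℓ : ℕ}

instance instModuleUnitsModPow : Module (ZMod ℓ) (UnitsModPow M ℓ) :=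
  AddCommGroup.zmodModule nsmul_eq_zero'

variable (M ℓ) in
/-- Parabolic homomorphisms to `ℤ / ℓ`. -/
def parHom : Submodule (ZMod ℓ) (Additive (Gamma1 M) →+ ZMod ℓ) where
  carrier := {c | Period.IsParabolicHom (Gamma1 M) c}
  zero_mem' := fun _ _ => rfl
  add_mem' := fun hc hd γ hγ => by
    rw [AddMonoidHom.add_apply, hc γ hγ, hd γ hγ, add_zero]
  smul_mem' := fun r c hc γ hγ => by
    rw [AddMonoidHom.smul_apply, hc γ hγ, smul_zero]

variable {D : DiamondData M}

theorem CharClassFacts.powClass_eq (F : CharClassFacts D ℓ) (hℓ : ℓ ≠ 0)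
    {c : Additive (Gamma1 M) →+ ZMod ℓ} (hc : c ∈ parHom M ℓ) {x y : (K1 M)ˣ}
    (hx : IsRootHomOne ℓ (x : K1 M) c) (hy : IsRootHomOne ℓ (y : K1 M) c) :
    powClass ℓ x = powClass ℓ y := by
  obtain ⟨z, hz0, -, hz⟩ := F.exists_class (-c) ((parHom M ℓ).neg_mem hc)
  have key : ∀ x : (K1 M)ˣ, IsRootHomOne ℓ (x : K1 M) c →
      powClass ℓ x + powClass ℓ (Units.mk0 z hz0) = 0 := fun x hx => by
    rw [← powClass_mul]
    obtain ⟨u, hu⟩ := (F.pow_iff _ _ (mul_ne_zero x.ne_zero hz0) (F.mul _ _ _ _ hx hz)).1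
      (add_neg_cancel c)
    exact powClass_eq_zero_of_pow hℓ (u := u) hu
  exact add_right_cancel ((key x hx).trans (key y hy).symm)

theorem dvdDiv_of_powClass_eq {x y : (K1 M)ˣ} (h : powClass ℓ x = powClass ℓ y)
    (hy : DvdDiv ℓ (y : K1 M)) : DvdDiv ℓ (x : K1 M) := by
  have h0 : powClass ℓ (x * y⁻¹) = 0 := by
    rw [powClass_mul, powClass_inv, h]
    exact add_neg_cancel _
  obtain ⟨u, hu⟩ := powClass_eq_zero_iff.1 h0
  have e : (x : K1 M) = (u : K1 M) ^ ℓ * (y : K1 M) := by
    rw [← Units.val_pow_eq_pow_val, ← Units.val_mul, hu, inv_mul_cancel_right]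
  rw [e]
  exact (dvdDiv_pow_self _).mul hy (pow_ne_zero _ u.ne_zero) y.ne_zero

variable (F : CharClassFacts D ℓ) [hℓ : Fact ℓ.Prime]

/-- A chosen function attached to a parabolic homomorphism. -/
def classUnit (c : parHom M ℓ) : (K1 M)ˣ :=
  Units.mk0 (F.exists_class c.1 c.2).choose (F.exists_class c.1 c.2).choose_spec.1

omit hℓ in
theorem classUnit_spec (c : parHom M ℓ) :
    DvdDiv ℓ (classUnit F c : K1 M) ∧ IsRootHomOne ℓ (classUnit F c : K1 M) c.1 :=
  (F.exists_class c.1 c.2).choose_spec.2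

/-- The class of a parabolic homomorphism. -/
def classHom : parHom M ℓ →ₗ[ZMod ℓ] UnitsModPow M ℓ :=
  let f : parHom M ℓ →+ UnitsModPow M ℓ :=
    AddMonoidHom.mk' (fun c => powClass ℓ (classUnit F c)) fun c d => by
      rw [← powClass_mul]
      refine F.powClass_eq hℓ.out.ne_zero (c + d).2 (classUnit_spec F _).2 ?_
      exact F.mul _ _ _ _ (classUnit_spec F c).2 (classUnit_spec F d).2
  { f with map_smul' := fun r c => ZMod.map_smul f r c }

theorem classHom_apply (c : parHom M ℓ) : classHom F c = powClass ℓ (classUnit F c) := rfl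

theorem classHom_injective : Function.Injective (classHom F) := by
  refine (injective_iff_map_eq_zero _).2 fun c hc => Subtype.ext ?_
  rw [classHom_apply, powClass_eq_zero_iff] at hc
  obtain ⟨u, hu⟩ := hc
  exact (F.pow_iff _ _ (classUnit F c).ne_zero (classUnit_spec F c).2).2
    ⟨u, by rw [← hu, Units.val_pow_eq_pow_val]⟩

theorem diaCls_classHom (u : (ZMod M)ˣ) {γ : SL(2, ℤ)} (hγ : γ ∈ Gamma0 M)
    (hu : ((γ 1 1 : ℤ) : ZMod M) = u) (c c' : parHom M ℓ)
    (h : ∀ a b : Gamma1 M, (b : SL(2, ℤ)) = γ * (a : SL(2, ℤ)) * γ⁻¹ →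
      c'.1 (Additive.ofMul a) = c.1 (Additive.ofMul b)) :
    diaCls D u (classHom F c) = classHom F c' := by
  rw [classHom_apply, classHom_apply]
  refine F.powClass_eq hℓ.out.ne_zero c'.2 ?_ (classUnit_spec F c').2
  exact F.diamond u γ hγ hu _ _ _ (classUnit_spec F c).2 h

theorem heckeCls_classHom (hT : HeckeFacts D) {p : ℕ} [NeZero p] (hp : p.Prime) (hpM : p.Coprime M)
    (c c' : parHom M ℓ) (h : IsHeckeImageOne p c.1 c'.1) :
    heckeCls D hT hp hpM (classHom F c) = classHom F c' := by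
  rw [classHom_apply, classHom_apply]
  refine F.powClass_eq hℓ.out.ne_zero c'.2 ?_ (classUnit_spec F c').2
  exact F.hecke p hp hpM _ _ _ _ (classUnit_spec F c).2 (isTImage_TUnit hT hp hpM _) h

theorem dvdDiv_TUnit_classUnit (hT : HeckeFacts D) {p : ℕ} [NeZero p] (hp : p.Prime)
    (hpM : p.Coprime M) (c c' : parHom M ℓ) (h : IsHeckeImageOne p c.1 c'.1) :
    DvdDiv ℓ (TUnit D hT hp hpM (classUnit F c) : K1 M) :=
  dvdDiv_of_powClass_eq (heckeCls_classHom F hT hp hpM c c' h) (classUnit_spec F c').1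

/-! ### Coefficients -/

section Coefficients

variable {k : Type*} [Field k] [Algebra (ZMod ℓ) k]

/-- Evaluation of a class with coefficients at a functional on the coefficients. -/
def evCls {U : Type*} [AddCommGroup U] [Module (ZMod ℓ) U] (π : k →ₗ[ZMod ℓ] ZMod ℓ) :
    k ⊗[ZMod ℓ] U →ₗ[ZMod ℓ] U :=
  TensorProduct.lift ((LinearMap.lsmul (ZMod ℓ) U).comp π)

variable {U : Type*} [AddCommGroup U] [Module (ZMod ℓ) U]

@[simp] theorem evCls_tmul (π : k →ₗ[ZMod ℓ] ZMod ℓ) (t : k) (u : U) :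
    evCls π (t ⊗ₜ[ZMod ℓ] u) = π t • u := rfl

theorem evCls_baseChange (π : k →ₗ[ZMod ℓ] ZMod ℓ) (f : U →ₗ[ZMod ℓ] U) (w : k ⊗[ZMod ℓ] U) :
    evCls π (f.baseChange k w) = f (evCls π w) := by
  induction w using TensorProduct.induction_on with
  | zero => simp
  | tmul t u => simp
  | add x y hx hy => simp [map_add, hx, hy]

theorem evCls_smul (π : k →ₗ[ZMod ℓ] ZMod ℓ) (a : k) (w : k ⊗[ZMod ℓ] U) :
    evCls π (a • w) = evCls (π.comp (LinearMap.mulLeft (ZMod ℓ) a)) w := by
  induction w using TensorProduct.induction_on with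
  | zero => simp
  | tmul t u => simp [TensorProduct.smul_tmul']
  | add x y hx hy => simp [map_add, smul_add, hx, hy]

theorem ext_evCls {w w' : k ⊗[ZMod ℓ] U} (h : ∀ π : k →ₗ[ZMod ℓ] ZMod ℓ, evCls π w = evCls π w') :
    w = w' := by
  set b := Module.Free.chooseBasis (ZMod ℓ) k
  have key : ∀ (i) (v : k ⊗[ZMod ℓ] U),
      TensorProduct.equivFinsuppOfBasisLeft b v i = evCls (b.coord i) v := fun i v => by
    induction v using TensorProduct.induction_on with
    | zero => simp
    | tmul t u => simp [TensorProduct.equivFinsuppOfBasisLeft_apply_tmul_apply, evCls]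
    | add x y hx hy => simp [map_add, hx, hy]
  refine (TensorProduct.equivFinsuppOfBasisLeft b).injective (Finsupp.ext fun i => ?_)
  rw [key, key, h]

/-- A parabolic homomorphism followed by a functional on the coefficients. -/
def coordHom (c : Additive (Gamma1 M) →+ k) (hc : Period.IsParabolicHom (Gamma1 M) c)
    (π : k →ₗ[ZMod ℓ] ZMod ℓ) : parHom M ℓ :=
  ⟨π.toAddMonoidHom.comp c, fun γ hγ => by
    rw [AddMonoidHom.comp_apply, hc γ hγ, map_zero]⟩

omit [NeZero M] in
theorem exists_coeff_support (hfg : Group.FG (Gamma1 M)) {ι : Type*}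
    (b : Module.Basis ι (ZMod ℓ) k) (c : Additive (Gamma1 M) →+ k) :
    ∃ s : Finset ι, ∀ x, c x = ∑ i ∈ s, b.repr (c x) i • b i := by
  classical
  have hA : AddGroup.FG (Additive (Gamma1 M)) := (GroupFG.iff_add_fg).1 hfg
  obtain ⟨g, hg⟩ := hA.out
  refine ⟨g.biUnion fun x => (b.repr (c x)).support, fun x => ?_⟩
  set s := g.biUnion fun x => (b.repr (c x)).support
  have hx : x ∈ AddSubgroup.closure (g : Set (Additive (Gamma1 M))) := hg ▸ AddSubgroup.mem_top x
  induction hx using AddSubgroup.closure_induction with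
  | mem y hy =>
    conv_lhs => rw [← b.linearCombination_repr (c y)]
    rw [Finsupp.linearCombination_apply]
    exact Finsupp.sum_of_support_subset _
      (Finset.subset_biUnion_of_mem (fun x => (b.repr (c x)).support) hy) _ fun i _ => zero_smul _ _
  | zero => simp
  | add y z _ _ hy hz =>
    conv_lhs => rw [map_add, hy, hz]
    rw [← Finset.sum_add_distrib]
    exact Finset.sum_congr rfl fun i _ => by rw [map_add, map_add, Finsupp.add_apply, add_smul]
  | neg y _ hy =>
    conv_lhs => rw [map_neg, hy]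
    rw [← Finset.sum_neg_distrib]
    exact Finset.sum_congr rfl fun i _ => by rw [map_neg, map_neg, Finsupp.neg_apply, neg_smul]

/-- The class with coefficients of a parabolic homomorphism to `k`. -/
theorem exists_coeffClass (hfg : Group.FG (Gamma1 M)) (c : Additive (Gamma1 M) →+ k)
    (hc : Period.IsParabolicHom (Gamma1 M) c) :
    ∃ w : k ⊗[ZMod ℓ] UnitsModPow M ℓ,
      ∀ π : k →ₗ[ZMod ℓ] ZMod ℓ, evCls π w = classHom F (coordHom c hc π) := by
  set b := Module.Free.chooseBasis (ZMod ℓ) k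
  obtain ⟨s, hs⟩ := exists_coeff_support hfg b c
  refine ⟨∑ i ∈ s, b i ⊗ₜ[ZMod ℓ] classHom F (coordHom c hc (b.coord i)), fun π => ?_⟩
  rw [map_sum]
  simp only [evCls_tmul]
  simp only [← map_smul, ← map_sum]
  congr 1
  refine Subtype.ext (AddMonoidHom.ext fun x => ?_)
  rw [Submodule.coe_sum, AddMonoidHom.finsetSum_apply]
  show ∑ i ∈ s, π (b i) * b.coord i (c x) = π (c x)
  conv_rhs => rw [hs x, map_sum]
  exact Finset.sum_congr rfl fun i _ => by
    rw [map_smul, smul_eq_mul, Module.Basis.coord_apply, mul_comm]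

end Coefficients

end FLTAgent.DS
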