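import Fermat.Agent.GalRep.Cyclo
import Fermat.Prelude.Def_GaloisRep_Residual
import Mathlib.NumberTheory.Cyclotomic.CyclotomicCharacter

/-!
# The cyclotomic character modulo `N`
-/

set_option autoImplicit false

noncomputable section

namespace FLTAgent.DS

local notation "Qbar" => AlgebraicClosure ℚ
local notation "Γℚ" => AlgebraicClosure ℚ ≃ₐ[ℚ] AlgebraicClosure ℚ

variable (N : ℕ) [NeZero N]

/-- A primitive `N`-th root of unity in `ℚ̄`. -/
def zetaN : Qbar := (HasEnoughRootsOfUnity.exists_primitiveRoot Qbar N).choose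

theorem zetaN_spec : IsPrimitiveRoot (zetaN N) N :=
  (HasEnoughRootsOfUnity.exists_primitiveRoot Qbar N).choose_spec

/-- The cyclotomic character modulo `N`. -/
def cycloN : Γℚ →* (ZMod N)ˣ := (zetaN_spec N).autToPow ℚ

theorem cycloN_eq_of_apply {σ : Γℚ} {j : ℕ} (h : σ (zetaN N) = zetaN N ^ j) :
    ((cycloN N σ : (ZMod N)ˣ) : ZMod N) = j := by
  have e := (zetaN_spec N).autToPow_spec ℚ σ
  rw [h, ← pow_mod_orderOf (zetaN N) j, ← (zetaN_spec N).eq_orderOf] at e
  have := (zetaN_spec N).pow_inj (ZMod.val_lt _) (Nat.mod_lt _ (Nat.pos_of_ne_zero (NeZero.ne N))) e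
  rw [← ZMod.natCast_zmod_val ((cycloN N σ : (ZMod N)ˣ) : ZMod N), show
    ((cycloN N σ : (ZMod N)ˣ) : ZMod N).val = j % N from this, ZMod.natCast_mod]

theorem cycloN_finiteLevel :
    ∃ L : IntermediateField ℚ Qbar, FiniteDimensional ℚ L ∧
      ∀ σ : Γℚ, (∀ x ∈ L, σ x = x) → cycloN N σ = 1 := by
  refine ⟨IntermediateField.adjoin ℚ {zetaN N}, IntermediateField.adjoin.finiteDimensional
    ((AlgebraicClosure.isAlgebraic ℚ).isAlgebraic (zetaN N)).isIntegral, fun σ hσ => Units.ext ?_⟩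
  rw [Units.val_one, cycloN_eq_of_apply N (j := 1) (by
    rw [pow_one]; exact hσ _ (IntermediateField.mem_adjoin_simple_self ℚ _)), Nat.cast_one]

variable {N} {A : ValuationSubring Qbar} {q : ℕ}

theorem cycloN_frobenius (hA : A.LiesOverPrime q) (hqN : N.Coprime q)
    {σ : Γℚ} (hσ : A.IsFrobeniusAt σ q) : ((cycloN N σ : (ZMod N)ˣ) : ZMod N) = q := by
  refine cycloN_eq_of_apply N ?_
  have hN := NeZero.ne N
  let x : A := ⟨zetaN N, GalRep.root_mem N hN (zetaN_spec N).pow_eq_one⟩
  have hx : x ^ N = 1 := Subtype.ext (by simpa [x] using (zetaN_spec N).pow_eq_one)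
  let g : A.decompositionSubgroup ℚ := ⟨σ, hσ.mem_decompositionSubgroup⟩
  have h := hσ.smul_residue_eq (IsLocalRing.residue A x)
  rw [← IsLocalRing.ResidueField.residue_smul, ← map_pow] at h
  have key : g • x = x ^ q := by
    refine GalRep.root_eq_of_residue_eq hA hN hqN ?_ ?_ h
    · rw [← smul_pow', hx, smul_one]
    · rw [← pow_mul, mul_comm, pow_mul, hx, one_pow]
  exact congrArg Subtype.val key

theorem cycloN_inertia (hA : A.LiesOverPrime q) (hqN : N.Coprime q)
    {σ : Γℚ} (hσ : σ ∈ A.inertiaSubgroupIn ℚ) : cycloN N σ = 1 := by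
  obtain ⟨g, hg, rfl⟩ := hσ
  refine Units.ext ?_
  rw [Units.val_one, cycloN_eq_of_apply N (j := 1), Nat.cast_one]
  have hN := NeZero.ne N
  let x : A := ⟨zetaN N, GalRep.root_mem N hN (zetaN_spec N).pow_eq_one⟩
  have hx : x ^ N = 1 := Subtype.ext (by simpa [x] using (zetaN_spec N).pow_eq_one)
  have hres : g • IsLocalRing.residue A x = IsLocalRing.residue A x := by
    simpa using RingEquiv.congr_fun (MonoidHom.mem_ker.mp hg) (IsLocalRing.residue A x)
  rw [← IsLocalRing.ResidueField.residue_smul] at hres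
  have key : g • x = x := by
    refine GalRep.root_eq_of_residue_eq hA hN hqN ?_ hx hres
    rw [← smul_pow', hx, smul_one]
  rw [pow_one]
  exact congrArg Subtype.val key

end FLTAgent.DS
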