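import Fermat.Agent.DS.ModRep.Units
import Fermat.Agent.GalRep.Cyclo

/-!
# The relation of Eichler and Shimura on classes, and triviality of inertia
-/

set_option autoImplicit false

noncomputable section

namespace FLTAgent.DS

open ModularCurve AlgebraicCurve IsLocalRing
open FLTAgent.ModPoly
open scoped Pointwise

local notation "Qbar" => AlgebraicClosure ℚ
local notation "Γℚ" => AlgebraicClosure ℚ ≃ₐ[ℚ] AlgebraicClosure ℚ

variable {M : ℕ} [NeZero M] {ℓ : ℕ} {A : ValuationSubring Qbar}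

theorem charP_residue_of_liesOverPrime {p : ℕ} (hp : p.Prime) (hA : A.LiesOverPrime p) :
    CharP (ResidueField A) p := by
  refine (CharP.charP_iff_prime_eq_zero hp).2 ?_
  rw [← map_natCast (residue A), residue_eq_zero_iff, ← ValuationSubring.coe_mem_nonunits_iff]
  have e : ((p : A) : Qbar) = (p : Qbar) := map_natCast A.subtype p
  rw [e]; exact hA

/-- A nonzero constant as a unit of the field. -/
def constUnit (M : ℕ) [NeZero M] : Qbarˣ →* (K1 M)ˣ :=
  Units.map (algebraMap Qbar (K1 M) : Qbar →* K1 M)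

theorem coe_constUnit (c : Qbarˣ) :
    (((constUnit M c : (K1 M)ˣ) : K1 M) : LaurentSeries Qbar) = HahnSeries.C (c : Qbar) :=
  algebraMap_laurentSeries_eq_single Qbar (c : Qbar)

theorem powClass_constUnit (hℓ : ℓ ≠ 0) (c : Qbarˣ) : powClass ℓ (constUnit M c) = 0 := by
  obtain ⟨d, hd⟩ := IsAlgClosed.exists_pow_nat_eq (c : Qbar) (Nat.pos_of_ne_zero hℓ)
  refine powClass_eq_zero_of_pow hℓ (u := algebraMap Qbar (K1 M) d) ?_
  rw [← map_pow, hd]; rfl

theorem powClass_constUnit_mul (hℓ : ℓ ≠ 0) (c : Qbarˣ) (x : (K1 M)ˣ) :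
    powClass ℓ (constUnit M c * x) = powClass ℓ x := by
  rw [powClass_mul, powClass_constUnit hℓ]
  exact zero_add (powClass ℓ x)

theorem dvdDiv_constUnit_mul {x : (K1 M)ˣ} (hx : DvdDiv ℓ (x : K1 M)) (c : Qbarˣ) :
    DvdDiv ℓ ((constUnit M c * x : (K1 M)ˣ) : K1 M) := by
  rw [Units.val_mul]
  exact (dvdDiv_algebraMap _).mul hx (constUnit M c).ne_zero x.ne_zero

variable {D : DiamondData M}

/-- A unit scaled to have a nonzero reduction. -/
theorem exists_unit_scale (R : ReductionFacts D A) (x : (K1 M)ˣ) :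
    ∃ (c : Qbarˣ) (z : LaurentSeries (ResidueField A)), z ≠ 0 ∧
      RedSer A (((constUnit M c * x : (K1 M)ˣ) : K1 M) : LaurentSeries Qbar) z := by
  obtain ⟨c, z, hc, hz, h⟩ := R.exists_scale x x.ne_zero
  refine ⟨Units.mk0 c hc, z, hz, ?_⟩
  rw [Units.val_mul, show ((constUnit M (Units.mk0 c hc) : (K1 M)ˣ) : K1 M)
    = algebraMap Qbar (K1 M) c from rfl, ← Algebra.smul_def]
  exact h

theorem RedSer.galOne {x : K1 M} {z : LaurentSeries (ResidueField A)}
    (h : RedSer A (x : LaurentSeries Qbar) z) {σ : Γℚ} (hσ : σ ∈ A.decompositionSubgroup ℚ)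
    (φ : ResidueField A →+* ResidueField A)
    (hφ : ∀ t, φ t = (⟨σ, hσ⟩ : A.decompositionSubgroup ℚ) • t) :
    RedSer A (DS.galOne M σ x : LaurentSeries Qbar) (coeffMap φ z) := by
  rw [coe_galOne]
  exact h.map _ (MulSemiringAction.toRingHom (A.decompositionSubgroup ℚ) A ⟨σ, hσ⟩)
    (fun a => rfl) φ fun a => by
      rw [hφ, MulSemiringAction.toRingHom_apply, IsLocalRing.ResidueField.residue_smul]

theorem RedSer.twistProd {x : LaurentSeries Qbar} {z : LaurentSeries (ResidueField A)}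
    (h : RedSer A x z) {p : ℕ} [Fact p.Prime] [CharP (ResidueField A) p] {ζ : Qbarˣ}
    (hζ : IsPrimitiveRoot ζ p) : RedSer A (DS.twistProd p ζ x) (z ^ p) := by
  have hp0 : p ≠ 0 := (Fact.out : p.Prime).ne_zero
  haveI : ExpChar (ResidueField A) p := ExpChar.prime Fact.out
  have key : ∀ j : ℕ, RedSer A (ModPoly.twist (ζ ^ j) x) z := fun j => by
    have hj : ((ζ ^ j : Qbarˣ) : Qbar) ^ p = 1 := by
      rw [← Units.val_pow_eq_pow_val, ← pow_mul, mul_comm, pow_mul, hζ.pow_eq_one, one_pow,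
        Units.val_one]
    let a : A := ⟨_, GalRep.root_mem p hp0 hj⟩
    have ha : a ^ p = 1 := Subtype.ext (by simpa [a] using hj)
    have hu : ((Units.ofPowEqOne a p ha hp0 : Aˣ) : A) = a := Units.val_ofPowEqOne a p ha hp0
    have hres : residue A a = 1 := by
      refine frobenius_inj (ResidueField A) p ?_
      rw [frobenius_def, frobenius_def, ← map_pow, ha, map_one, one_pow]
    exact h.twist (ζ ^ j) (Units.ofPowEqOne a p ha hp0) (by rw [hu]) (by rw [hu, hres])
  have := RedSer.prod (A := A) (Finset.range p) (z := fun _ => z) fun j _ => key j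
  rw [Finset.prod_const, Finset.card_range] at this
  exact this

theorem twistProd_C_mul (p : ℕ) (ζ : Qbarˣ) (c : Qbar) (x : LaurentSeries Qbar) :
    twistProd p ζ (HahnSeries.C c * x) = HahnSeries.C (c ^ p) * twistProd p ζ x := by
  simp only [twistProd, map_mul, twist_C, Finset.prod_mul_distrib, Finset.prod_const,
    Finset.card_range, map_pow]

set_option maxHeartbeats 1000000 in
/-- **The congruence of Eichler and Shimura** on classes with divisor divisible by `ℓ`. -/
theorem galCls_hecke_eq (R : ReductionFacts D A) {p : ℕ} [NeZero p] (hp : p.Prime)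
    (hA : A.LiesOverPrime p) (hℓ : (ℓ : ResidueField A) ≠ 0) (hpM : p.Coprime M) {σ : Γℚ}
    (hσ : A.IsFrobeniusAt σ p) (x y : (K1 M)ˣ) (hT : IsTImage D p hpM (x : K1 M) (y : K1 M))
    (hx : DvdDiv ℓ (x : K1 M)) (hy : DvdDiv ℓ (y : K1 M)) :
    galCls σ (powClass ℓ y) = galCls σ (galCls σ (powClass ℓ x))
      + p • diaCls D (ZMod.unitOfCoprime p hpM) (powClass ℓ x) := by
  haveI : Fact p.Prime := ⟨hp⟩
  haveI := charP_residue_of_liesOverPrime hp hA
  haveI : ExpChar (ResidueField A) p := ExpChar.prime hp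
  have hℓ0 : ℓ ≠ 0 := fun h => hℓ (by rw [h, Nat.cast_zero])
  set φ := frobenius (ResidueField A) p
  have hφ : ∀ t, φ t = (⟨σ, hσ.mem_decompositionSubgroup⟩ : A.decompositionSubgroup ℚ) • t :=
    fun t => by rw [hσ.smul_residue_eq]; rfl
  set dx : (K1 M)ˣ := Units.map (D.dia (ZMod.unitOfCoprime p hpM) : K1 M →* K1 M) x with hdx
  obtain ⟨cx, zx, hzx, hX⟩ := exists_unit_scale R x
  obtain ⟨cd, zd, hzd, hD⟩ := exists_unit_scale R dx
  obtain ⟨cy, zy, hzy, hY⟩ := exists_unit_scale R y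
  set X := constUnit M cx * x with hXdef
  set Dx := constUnit M cd * dx with hDdef
  set Y := constUnit M cy * y with hYdef
  set Y' := constUnit M (cx ^ p * cd) * y with hY'def
  obtain ⟨ζ, hζ⟩ := exists_primitive_unit p
  set Z := coeffMap φ zx * qExpand (ResidueField A) p zd with hZ
  -- the defining equation of `T p`, reduced
  have h1 : RedSer A (qExpand Qbar p ((Y' : K1 M) : LaurentSeries Qbar))
      (qExpand (ResidueField A) p Z) := by
    have e : qExpand Qbar p ((Y' : K1 M) : LaurentSeries Qbar)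
        = twistProd p ζ ((X : K1 M) : LaurentSeries Qbar)
          * qExpand Qbar (p * p) ((Dx : K1 M) : LaurentSeries Qbar) := by
      simp only [hY'def, hXdef, hDdef, Units.val_mul, MulMemClass.coe_mul, map_mul, coe_constUnit,
        qExpand_C, twistProd_C_mul, hT ζ hζ, Units.val_pow_eq_pow_val]
      rw [show ((dx : K1 M)) = D.dia (ZMod.unitOfCoprime p hpM) (x : K1 M) from rfl]
      ring
    rw [e, hZ, map_mul, qExpand_qExpand, ← pow_char_eq_qExpand p zx]
    exact (hX.twistProd hζ).mul (hD.qExpand (p * p))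
  -- descend from `q ^ p`
  have hY' : RedSer A ((Y' : K1 M) : LaurentSeries Qbar) Z := by
    have e : ((Y' : K1 M) : LaurentSeries Qbar)
        = HahnSeries.C ((cx ^ p * cd / cy : Qbarˣ) : Qbar) * ((Y : K1 M) : LaurentSeries Qbar) := by
      simp only [hY'def, hYdef, Units.val_mul, MulMemClass.coe_mul, coe_constUnit]
      rw [← mul_assoc, ← map_mul, ← Units.val_mul, ← Units.val_mul, div_mul_cancel]
    obtain ⟨u, hu, hC⟩ := (hY.qExpand p).exists_scalar ((cx ^ p * cd / cy : Qbarˣ) : Qbar)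
      (by rw [e, map_mul, qExpand_C]) h1
      ((map_ne_zero_iff _ (qExpand_injective p)).2 hzy)
    rw [← qExpand_C p, ← map_mul] at hu
    rw [qExpand_injective p hu, e]
    exact hC.mul hY
  have hσY := hY'.galOne hσ.mem_decompositionSubgroup φ hφ
  have hσX := (hX.galOne hσ.mem_decompositionSubgroup φ hφ).galOne
    hσ.mem_decompositionSubgroup φ hφ
  rw [hZ, map_mul, coeffMap_qExpand', ← pow_char_eq_qExpand p zd] at hσY
  set W : (K1 M)ˣ := Units.map (galOne M σ : K1 M →* K1 M) Y'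
    * (Units.map (galOne M σ : K1 M →* K1 M) (Units.map (galOne M σ : K1 M →* K1 M) X)
      * Dx ^ p)⁻¹ with hW
  have hW1 : RedOne A (W : K1 M) 1 := by
    show RedSer A ((W : K1 M) : LaurentSeries Qbar) 1
    have hne : coeffMap φ (coeffMap φ zx) * zd ^ p ≠ 0 := mul_ne_zero
      (fun h => hzx ((map_eq_zero _).1 ((map_eq_zero _).1 h))) (pow_ne_zero _ hzd)
    have := hσY.mul (((hσX.mul (hD.pow p))).inv hne)
    rw [mul_inv_cancel₀ hne] at this
    simpa only [hW, Units.val_mul, Units.val_inv_eq_inv_val, Units.val_pow_eq_pow_val,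
      MulMemClass.coe_mul, SubmonoidClass.coe_pow, IntermediateField.coe_inv, Units.coe_map,
      MonoidHom.coe_coe] using this
  have hW2 : DvdDiv ℓ (W : K1 M) := by
    simp only [hW, Units.val_mul, Units.val_inv_eq_inv_val, Units.val_pow_eq_pow_val]
    have hx' : DvdDiv ℓ (dx : K1 M) := hx.map_algEquiv _
    refine ((dvdDiv_constUnit_mul hy _).map_galOne σ).mul (DvdDiv.inv ?_)
      ((map_ne_zero _).2 (Units.ne_zero _)) ?_
    · exact (((dvdDiv_constUnit_mul hx _).map_galOne σ).map_galOne σ).mul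
        ((dvdDiv_constUnit_mul hx' _).pow p)
          ((map_ne_zero _).2 ((map_ne_zero _).2 (Units.ne_zero _)))
        (pow_ne_zero _ (Units.ne_zero _))
    · exact inv_ne_zero (mul_ne_zero (Units.ne_zero _)
        (pow_ne_zero _ (Units.ne_zero _)))
  obtain ⟨u, hu⟩ := R.torsion ℓ hℓ _ W.ne_zero hW2 hW1
  have hcls := powClass_eq_zero_of_pow hℓ0 hu
  rw [hW, powClass_mul, powClass_inv, powClass_mul, powClass_pow, ← galCls_powClass,
    ← galCls_powClass, ← galCls_powClass, hY'def, hXdef, hDdef, powClass_constUnit_mul hℓ0,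
    powClass_constUnit_mul hℓ0, powClass_constUnit_mul hℓ0] at hcls
  exact add_neg_eq_zero.1 hcls

/-- Inertia fixes classes with divisor divisible by `ℓ`. -/
theorem galCls_inertia (R : ReductionFacts D A) (hℓ : (ℓ : ResidueField A) ≠ 0) {σ : Γℚ}
    (hσ : σ ∈ A.inertiaSubgroupIn ℚ) (x : (K1 M)ˣ) (hx : DvdDiv ℓ (x : K1 M)) :
    galCls σ (powClass ℓ x) = powClass ℓ x := by
  obtain ⟨g, hg, rfl⟩ := hσ
  have hℓ0 : ℓ ≠ 0 := fun h => hℓ (by rw [h, Nat.cast_zero])
  have hid : ∀ t : ResidueField A, RingHom.id _ t = g • t := fun t => by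
    simpa using (RingEquiv.congr_fun (MonoidHom.mem_ker.mp hg) t).symm
  obtain ⟨c, z, hz, hX⟩ := exists_unit_scale R x
  set X := constUnit M c * x with hXdef
  have hσX := hX.galOne g.2 (RingHom.id _) hid
  rw [coeffMap_id] at hσX
  set W : (K1 M)ˣ := Units.map (galOne M (g : Γℚ) : K1 M →* K1 M) X * X⁻¹ with hW
  have hW1 : RedOne A (W : K1 M) 1 := by
    show RedSer A ((W : K1 M) : LaurentSeries Qbar) 1
    have := hσX.mul (hX.inv hz)
    rw [mul_inv_cancel₀ hz] at this
    simpa only [hW, Units.val_mul, Units.val_inv_eq_inv_val, MulMemClass.coe_mul,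
      IntermediateField.coe_inv, Units.coe_map, MonoidHom.coe_coe] using this
  have hW2 : DvdDiv ℓ (W : K1 M) := by
    simp only [hW, Units.val_mul, Units.val_inv_eq_inv_val]
    exact ((dvdDiv_constUnit_mul hx _).map_galOne _).mul (dvdDiv_constUnit_mul hx _).inv
      ((map_ne_zero _).2 (Units.ne_zero _)) (inv_ne_zero (Units.ne_zero _))
  obtain ⟨u, hu⟩ := R.torsion ℓ hℓ _ W.ne_zero hW2 hW1
  have hcls := powClass_eq_zero_of_pow hℓ0 hu
  rw [hW, powClass_mul, powClass_inv, ← galCls_powClass, hXdef, powClass_constUnit_mul hℓ0,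
    ] at hcls
  exact add_neg_eq_zero.1 hcls

end FLTAgent.DS
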