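import Fermat.Agent.DS.ModRep.Rep
import Fermat.Agent.DS.ModRep.Congruence
import Fermat.Agent.DS.ModRep.CycloN
import Fermat.Agent.DS.EigenClass
import Fermat.Agent.DS.Assembly

/-!
# Mod `ℓ` representations from the facts about the fields of level `Γ₁`
-/

set_option autoImplicit false

noncomputable section

namespace FLTAgent.DS

open CongruenceSubgroup IsLocalRing
open scoped MatrixGroups ModularForm

local notation "Qbar" => AlgebraicClosure ℚ
local notation "Γℚ" => AlgebraicClosure ℚ ≃ₐ[ℚ] AlgebraicClosure ℚ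

/-- The mod `ℓ` representations of a depleted weight one eigenform. -/
theorem hasModReps_of_facts (hG : GeomFacts) (N : ℕ) [NeZero N] (h23 : 2 ∣ N ∨ 3 ∣ N)
    (ε : DirichletCharacter ℂ N) (f : CuspForm (Gamma1 N) 1)
    (hne : ∀ γ ∈ Gamma0 N,
      (f : UpperHalfPlane → ℂ) ∣[(1 : ℤ)] γ = ε ((γ 1 1 : ℤ) : ZMod N) • (f : UpperHalfPlane → ℂ))
    (hb : DepletedEigen N (fun p => ε (p : ZMod N)) (ModularFormClass.qCoeff f))
    (hint : ∀ n, IsIntegral ℤ (ModularFormClass.qCoeff f n)) :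
    HasModReps N (ModularFormClass.qCoeff f) (fun p => ε (p : ZMod N)) := by
  classical
  refine ⟨max N 7, fun ℓ hℓ hlt A hA => ?_⟩
  simp only [max_lt_iff] at hlt
  haveI : Fact ℓ.Prime := ⟨hℓ⟩
  haveI : NeZero ℓ := ⟨hℓ.ne_zero⟩
  haveI : NeZero (N * ℓ) := ⟨Nat.mul_ne_zero (NeZero.ne N) hℓ.ne_zero⟩
  haveI := charP_residue hℓ hA
  haveI := isAlgClosed_residue A
  letI +nondep : Algebra (ZMod ℓ) (ResidueField A) := ZMod.algebra _ ℓ
  set M := N * ℓ
  have hM7 : 7 ≤ M := le_trans (by omega : 7 ≤ ℓ)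
    (Nat.le_mul_of_pos_left ℓ (Nat.pos_of_ne_zero (NeZero.ne N)))
  obtain ⟨-, D, hT, hC, hR⟩ := hG.exists_data M hM7
  obtain ⟨g, ψ, hgs, hg, hψ⟩ := exists_congruent_form hℓ (by omega) ε f hne hint A hA
  set P : Set ℕ := {p | p.Prime ∧ ¬ p ∣ M} with hP
  have hPN : ∀ {p : ℕ}, p ∈ P → ¬ p ∣ N := fun hp h => hp.2 (h.trans (dvd_mul_right N ℓ))
  let a : ℕ → A := fun p => ⟨_, Frobenius.mem_of_isIntegral A (hint p)⟩
  have hgA : ∀ n, ModularFormClass.qCoeff g n ∈ A := fun n => by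
    obtain ⟨x, -, hx, -, -⟩ := hg n; exact hx ▸ x.2
  obtain ⟨c, hc0, hcp, hcd, hcT⟩ := eigenClassExists M ψ g A hgs hgA
    ⟨1, fun h => by
      obtain ⟨x, y, hx, hy, hxy⟩ := hg 1
      have h0 : residue A x = 0 := by
        rw [← map_zero (residue A), residue_eq_iff, hx]; simpa using h
      rw [show y = 1 from Subtype.ext (hy.trans hb.one), map_one, h0] at hxy
      exact zero_ne_one hxy⟩
    P a (fun p hp => ⟨hp.1, hp.2, fun n => by
      obtain ⟨x₁, y₁, hx₁, hy₁, h₁⟩ := hg (p * n)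
      obtain ⟨x₂, y₂, hx₂, hy₂, h₂⟩ := hg n
      obtain ⟨x₃, y₃, hx₃, hy₃, h₃⟩ := hg (n / p)
      obtain ⟨z, w, hz, hw, hzw⟩ := hψ p ((hp.1.coprime_iff_not_dvd).2 hp.2)
      have key := hb.mul p hp.1 (hPN hp) n
      have he : y₁ + w * (if p ∣ n then y₃ else 0) - a p * y₂ = 0 := Subtype.ext (by
        push_cast
        rw [hy₁, hw, hy₂, show ((if p ∣ n then y₃ else 0 : A) : ℂ)
            = if p ∣ n then ModularFormClass.qCoeff f (n / p) else 0 by split_ifs <;> simp [hy₃]]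
        exact sub_eq_zero.2 key)
      have hres : residue A (x₁ + z * (p : A) * (if p ∣ n then x₃ else 0) - a p * x₂)
          = residue A 0 := by
        refine Eq.trans ?_ (congrArg (residue A) he)
        simp only [map_sub, map_add, map_mul, map_natCast, hzw, h₁, h₂]
        split_ifs <;> simp only [h₃, map_zero]
      rw [residue_eq_iff] at hres
      convert hres using 1
      rw [ZeroMemClass.coe_zero, sub_zero]
      push_cast
      rw [hx₁, hz, hx₂, show ((if p ∣ n then x₃ else 0 : A) : ℂ)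
            = if p ∣ n then ModularFormClass.qCoeff g (n / p) else 0 by split_ifs <;> simp [hx₃]]⟩)
  -- the characters
  have hεA : ∀ u : ZMod N, ε u ∈ A := fun u =>
    Frobenius.mem_of_isIntegral A (isIntegral_char ε u)
  have hψA : ∀ u : ZMod M, ψ u ∈ A := fun u =>
    Frobenius.mem_of_isIntegral A (isIntegral_char ψ u)
  let εr : ZMod N →* ResidueField A :=
    { toFun := fun u => residue A ⟨_, hεA u⟩
      map_one' := by rw [show (⟨_, hεA 1⟩ : A) = 1 from Subtype.ext (map_one ε), map_one]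
      map_mul' := fun u v => by
        rw [← map_mul, show (⟨_, hεA (u * v)⟩ : A) = ⟨_, hεA u⟩ * ⟨_, hεA v⟩ from
          Subtype.ext (map_mul ε u v)] }
  let e : Γℚ →* (ResidueField A)ˣ := (Units.map εr).comp (cycloN N)
  have hef : GaloisFactorsThroughFiniteLevel e := by
    obtain ⟨L, hL, h⟩ := cycloN_finiteLevel N
    exact ⟨L, hL, fun σ hσ => by simp only [e, MonoidHom.comp_apply, h σ hσ, map_one]⟩
  have he : ∀ p ∈ P, ∀ hpM : p.Coprime M, ∀ B : ValuationSubring Qbar, B.LiesOverPrime p →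
      (∀ σ ∈ B.inertiaSubgroupIn ℚ, e σ = 1) ∧ ∀ σ : Γℚ, B.IsFrobeniusAt σ p →
        (e σ : ResidueField A)
          = p * residue A ⟨_, hψA (ZMod.unitOfCoprime p hpM : (ZMod M)ˣ)⟩ := by
    intro p hp hpM B hB
    have hNp : N.Coprime p := (hp.1.coprime_iff_not_dvd.2 (hPN hp)).symm
    refine ⟨fun σ hσ => by simp only [e, MonoidHom.comp_apply, cycloN_inertia hB hNp hσ, map_one],
      fun σ hσ => ?_⟩
    obtain ⟨z, w, hz, hw, hzw⟩ := hψ p hpM
    show residue A ⟨ε ((cycloN N σ : (ZMod N)ˣ) : ZMod N), _⟩ = _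
    rw [show (⟨ε ((cycloN N σ : (ZMod N)ˣ) : ZMod N), hεA _⟩ : A) = w from
        Subtype.ext (by rw [hw, ← cycloN_frobenius hB hNp hσ]),
      show (⟨_, hψA (ZMod.unitOfCoprime p hpM : (ZMod M)ˣ)⟩ : A) = z from
        Subtype.ext (by rw [hz, ZMod.coe_unitOfCoprime]), ← hzw, mul_comm]
  have hnot : ∀ p : ℕ, p.Prime → ¬ p ∣ N → p ≠ ℓ → p ∈ P := fun p hp hpN hpl =>
    ⟨hp, fun h => ((Nat.Prime.dvd_mul hp).1 h).elim hpN fun h' =>
      hpl ((Nat.prime_dvd_prime_iff_eq hp hℓ).1 h')⟩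
  obtain ⟨ρ, hρf, hρ⟩ := exists_rep_of_eigen (D := D) (k := ResidueField A) (hC ℓ hℓ) hT P
    (insert ℓ N.divisors)
    (fun p hp hp0 => hnot p hp (fun h => hp0 (Finset.mem_insert_of_mem
      (Nat.mem_divisors.2 ⟨h, NeZero.ne N⟩))) fun h => hp0 (h ▸ Finset.mem_insert_self _ _))
    (fun p hp => ⟨hp.1, hp.1.coprime_iff_not_dvd.2 hp.2,
      fun h => hp.2 (h ▸ dvd_mul_left ℓ N)⟩)
    (fun p hp B hB => hR p hp.1 hp.2
      (fun h2 => (h23.resolve_left fun h => hPN hp (h2 ▸ h)).trans (dvd_mul_right N ℓ))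
      (fun h3 => (h23.resolve_right fun h => hPN hp (h3 ▸ h)).trans (dvd_mul_right N ℓ)) B hB)
    (fun p => residue A (a p)) (fun u => residue A ⟨_, hψA u⟩) e hef he c hc0 hcp
    (fun u γ hγ hu x y hxy => by
      rw [hcd γ hγ ⟨_, hψA u⟩ (by rw [hu]) x y hxy])
    (fun p hp hpp => hcT p hp hpp)
  refine ⟨ρ, hρf, fun p hp hpN hpl B hB => ⟨((hρ p (hnot p hp hpN hpl) B hB)).1, fun σ hσ => ?_⟩⟩
  obtain ⟨htr, hdet⟩ := (hρ p (hnot p hp hpN hpl) B hB).2 σ hσ
  have hNp : N.Coprime p := (hp.coprime_iff_not_dvd.2 hpN).symm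
  refine ⟨a p, ⟨_, hεA (p : ZMod N)⟩, rfl, rfl, htr, hdet.trans ?_⟩
  show residue A ⟨ε ((cycloN N σ : (ZMod N)ˣ) : ZMod N), _⟩ = _
  simp only [cycloN_frobenius hB hNp hσ]

/-- `ModRepsExist` follows from the facts about the fields of level `Γ₁`. -/
theorem modRepsExist_of_facts (hG : GeomFacts) : ModRepsExist :=
  fun N _ h23 ε f _ hne hb hint => hasModReps_of_facts hG N h23 ε f hne hb hint

/-- The theorem of Deligne and Serre, from the facts about the fields of level `Γ₁`. -/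
theorem deligneSerre_of_facts (hG : GeomFacts)
    (N : ℕ) [NeZero N] (ε : DirichletCharacter ℂ N) (f : CuspForm (Gamma1 N) 1)
    (hf₁ : ModularFormClass.qCoeff f 1 = 1)
    (hT : ∀ p : ℕ, p.Prime → ¬ p ∣ N → ∀ n : ℕ,
        ModularFormClass.qCoeff f (p * n) +
            ε (p : ZMod N) * (if p ∣ n then ModularFormClass.qCoeff f (n / p) else 0) =
          ModularFormClass.qCoeff f p * ModularFormClass.qCoeff f n) :
    ∃ ρ : Γℚ →* GL (Fin 2) ℂ, GaloisFactorsThroughFiniteLevel ρ ∧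
      (Deformation.matrixRepresentation ρ).IsIrreducible ∧
      ∀ p : ℕ, p.Prime → ¬ p ∣ N →
        ∀ A : ValuationSubring (AlgebraicClosure ℚ), A.LiesOverPrime p →
          (∀ σ ∈ A.inertiaSubgroupIn ℚ, ρ σ = 1) ∧
          ∀ σ : Γℚ, A.IsFrobeniusAt σ p →
            ((ρ σ : GL (Fin 2) ℂ) : Matrix (Fin 2) (Fin 2) ℂ).trace = ModularFormClass.qCoeff f p ∧
            ((ρ σ : GL (Fin 2) ℂ) : Matrix (Fin 2) (Fin 2) ℂ).det = ε (p : ZMod N) :=
  exists_galoisRep_weightOne (modRepsExist_of_facts hG) N ε f hf₁ hT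

end FLTAgent.DS
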