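import Fermat.Agent.DS.Geom.Facts

/-!
# Reduction of Laurent series at a place of the constants

`RedSer A x z`: the series `x` is a quotient of two `A`-integral series, the denominator being
nonzero over the residue field, and `z` is the quotient of their reductions.
-/

set_option autoImplicit false

noncomputable section

namespace FLTAgent.DS

open ModularCurve IsLocalRing
open FLTAgent.ModPoly

variable {L : Type*} [Field L] (A : ValuationSubring L)

/-- `x` reduces to `z`. -/
def RedSer (x : LaurentSeries L) (z : LaurentSeries (ResidueField A)) : Prop :=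
  ∃ a b : LaurentSeries A, coeffMap (residue A) b ≠ 0 ∧
    x * coeffMap A.subtype b = coeffMap A.subtype a ∧
    z * coeffMap (residue A) b = coeffMap (residue A) a

variable {A}

theorem coeffMap_subtype_injective : Function.Injective (coeffMap A.subtype) := fun x y h =>
  HahnSeries.ext (funext fun k => Subtype.coe_injective (congrArg (fun s => s.coeff k) h))

theorem coeffMap_subtype_ne_zero {b : LaurentSeries A} (hb : coeffMap (residue A) b ≠ 0) :
    coeffMap A.subtype b ≠ 0 := fun h => hb (by
  rw [coeffMap_subtype_injective (h.trans (map_zero _).symm), map_zero])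

theorem RedSer.one : RedSer A 1 1 := ⟨1, 1, by simp, by simp, by simp⟩

theorem RedSer.mul {x y : LaurentSeries L} {z w : LaurentSeries (ResidueField A)}
    (hx : RedSer A x z) (hy : RedSer A y w) : RedSer A (x * y) (z * w) := by
  obtain ⟨a, b, hb, h1, h2⟩ := hx
  obtain ⟨c, d, hd, h3, h4⟩ := hy
  refine ⟨a * c, b * d, by rw [map_mul]; exact mul_ne_zero hb hd, ?_, ?_⟩
  · rw [map_mul, map_mul, ← h1, ← h3]; ring
  · rw [map_mul, map_mul, ← h2, ← h4]; ring

theorem RedSer.pow {x : LaurentSeries L} {z : LaurentSeries (ResidueField A)}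
    (hx : RedSer A x z) : ∀ n : ℕ, RedSer A (x ^ n) (z ^ n)
  | 0 => by simpa using RedSer.one
  | n + 1 => by rw [pow_succ, pow_succ]; exact (hx.pow n).mul hx

theorem RedSer.prod {ι : Type*} (s : Finset ι) {x : ι → LaurentSeries L}
    {z : ι → LaurentSeries (ResidueField A)} (h : ∀ i ∈ s, RedSer A (x i) (z i)) :
    RedSer A (∏ i ∈ s, x i) (∏ i ∈ s, z i) := by
  classical
  induction s using Finset.induction_on with
  | empty => simpa using RedSer.one
  | insert i s hi ih =>
    rw [Finset.prod_insert hi, Finset.prod_insert hi]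
    exact (h i (Finset.mem_insert_self i s)).mul (ih fun j hj => h j (Finset.mem_insert_of_mem hj))

theorem RedSer.inv {x : LaurentSeries L} {z : LaurentSeries (ResidueField A)}
    (hx : RedSer A x z) (hz : z ≠ 0) : RedSer A x⁻¹ z⁻¹ := by
  obtain ⟨a, b, hb, h1, h2⟩ := hx
  have ha : coeffMap (residue A) a ≠ 0 := h2 ▸ mul_ne_zero hz hb
  have hx0 : x ≠ 0 := fun h => coeffMap_subtype_ne_zero ha (by rw [← h1, h, zero_mul])
  refine ⟨b, a, ha, ?_, ?_⟩
  · rw [← h1, inv_mul_cancel_left₀ hx0]
  · rw [← h2, inv_mul_cancel_left₀ hz]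

theorem RedSer.unique {x : LaurentSeries L} {z z' : LaurentSeries (ResidueField A)}
    (h : RedSer A x z) (h' : RedSer A x z') : z = z' := by
  obtain ⟨a, b, hb, h1, h2⟩ := h
  obtain ⟨c, d, hd, h3, h4⟩ := h'
  have e : a * d = c * b := by
    have : coeffMap A.subtype (a * d) = coeffMap A.subtype (c * b) := by
      rw [map_mul, map_mul, ← h1, ← h3]; ring
    exact coeffMap_subtype_injective this
  have e' := congrArg (coeffMap (residue A)) e
  rw [map_mul, map_mul, ← h2, ← h4] at e'
  exact mul_right_cancel₀ (mul_ne_zero hb hd) (by linear_combination e')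

/-- A scalar relating two series with nonzero reductions is a unit. -/
theorem RedSer.exists_scalar {x y : LaurentSeries L} {z z' : LaurentSeries (ResidueField A)}
    (r : L) (hxy : y = HahnSeries.C r * x) (h : RedSer A x z) (h' : RedSer A y z')
    (hz : z ≠ 0) :
    ∃ u : ResidueField A, z' = HahnSeries.C u * z ∧
      RedSer A (HahnSeries.C r) (HahnSeries.C u) := by
  obtain ⟨a, b, hb, h1, h2⟩ := h
  obtain ⟨c, d, hd, h3, h4⟩ := h'
  have hkey : HahnSeries.C r * coeffMap A.subtype (a * d) = coeffMap A.subtype (c * b) := by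
    rw [map_mul, map_mul, ← h1, ← h3, hxy]; ring
  have had : coeffMap (residue A) (a * d) ≠ 0 := by
    rw [map_mul, ← h2]; exact mul_ne_zero (mul_ne_zero hz hb) hd
  obtain ⟨k, hk⟩ : ∃ k, residue A ((a * d).coeff k) ≠ 0 := by
    by_contra hall
    push Not at hall
    exact had (HahnSeries.ext (funext fun k => by rw [coeffMap_coeff, hall k]; rfl))
  obtain ⟨v, hv⟩ : IsUnit ((a * d).coeff k) := residue_ne_zero_iff_isUnit _ |>.1 hk
  have hr : r ∈ A := by
    have e := congrArg (fun s => s.coeff k) hkey
    simp only [HahnSeries.C_mul_eq_smul, HahnSeries.coeff_smul, coeffMap_coeff, smul_eq_mul] at e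
    have : r = A.subtype ((c * b).coeff k * ((v⁻¹ : Aˣ) : A)) := by
      rw [map_mul, ← e, ← hv, mul_assoc, ← map_mul, Units.mul_inv, map_one, mul_one]
    rw [this]; exact ((c * b).coeff k * ((v⁻¹ : Aˣ) : A)).2
  refine ⟨residue A ⟨r, hr⟩, ?_, HahnSeries.C ⟨r, hr⟩, 1, by simp, by simp [HahnSeries.C_apply],
    by simp [HahnSeries.C_apply]⟩
  have e : HahnSeries.C (⟨r, hr⟩ : A) * (a * d) = c * b := by
    have hC : coeffMap A.subtype (HahnSeries.C (⟨r, hr⟩ : A)) = HahnSeries.C r := by
      simp [HahnSeries.C_apply]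
    have := hkey
    rw [← hC, ← map_mul] at this
    exact coeffMap_subtype_injective this
  have e' := congrArg (coeffMap (residue A)) e
  rw [map_mul, map_mul, map_mul, ← h2, ← h4,
    show coeffMap (residue A) (HahnSeries.C (⟨r, hr⟩ : A)) = HahnSeries.C (residue A ⟨r, hr⟩) by
      simp [HahnSeries.C_apply]] at e'
  exact mul_right_cancel₀ (mul_ne_zero hb hd) (by linear_combination -e')

/-- An automorphism of the constants preserving `A`. -/
theorem RedSer.map {x : LaurentSeries L} {z : LaurentSeries (ResidueField A)}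
    (h : RedSer A x z) (φ : L →+* L) (φA : A →+* A) (hφ : ∀ a : A, (φA a : L) = φ a)
    (φk : ResidueField A →+* ResidueField A) (hk : ∀ a : A, residue A (φA a) = φk (residue A a)) :
    RedSer A (coeffMap φ x) (coeffMap φk z) := by
  obtain ⟨a, b, hb, h1, h2⟩ := h
  have hres : ∀ s : LaurentSeries A,
      coeffMap (residue A) (coeffMap φA s) = coeffMap φk (coeffMap (residue A) s) := fun s => by
    refine HahnSeries.ext (funext fun j => ?_); simp [hk]
  have hsub : ∀ s : LaurentSeries A,
      coeffMap A.subtype (coeffMap φA s) = coeffMap φ (coeffMap A.subtype s) := fun s => by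
    refine HahnSeries.ext (funext fun j => ?_); simp [hφ]
  refine ⟨coeffMap φA a, coeffMap φA b, ?_, ?_, ?_⟩
  · rw [hres]
    exact fun h0 => hb ((map_eq_zero (coeffMap φk)).1 h0)
  · rw [hsub, hsub, ← map_mul, h1]
  · rw [hres, hres, ← map_mul, h2]

theorem coeffMap_qExpand' {R S : Type*} [CommRing R] [CommRing S] (f : R →+* S) (p : ℕ) [NeZero p]
    (x : LaurentSeries R) : coeffMap f (qExpand R p x) = qExpand S p (coeffMap f x) := by
  refine HahnSeries.ext (funext fun k => ?_)
  by_cases hk : (p : ℤ) ∣ k
  · obtain ⟨m, rfl⟩ := hk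
    simp
  · simp [qExpand_coeff_of_not_dvd p _ hk]

theorem RedSer.qExpand {x : LaurentSeries L} {z : LaurentSeries (ResidueField A)}
    (h : RedSer A x z) (p : ℕ) [NeZero p] :
    RedSer A (ModularCurve.qExpand L p x) (ModularCurve.qExpand (ResidueField A) p z) := by
  obtain ⟨a, b, hb, h1, h2⟩ := h
  refine ⟨ModularCurve.qExpand A p a, ModularCurve.qExpand A p b, ?_, ?_, ?_⟩
  · rw [coeffMap_qExpand']
    exact fun h0 => hb (qExpand_injective p (by rw [h0, map_zero]))
  · rw [coeffMap_qExpand', coeffMap_qExpand', ← map_mul, h1]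
  · rw [coeffMap_qExpand', coeffMap_qExpand', ← map_mul, h2]

theorem coeffMap_twist {R S : Type*} [CommRing R] [CommRing S] (f : R →+* S) (c : Rˣ)
    (x : LaurentSeries R) :
    coeffMap f (twist c x) = twist (Units.map (f : R →* S) c) (coeffMap f x) := by
  refine HahnSeries.ext (funext fun k => ?_)
  rw [coeffMap_coeff, twist_coeff, twist_coeff, map_mul, coeffMap_coeff, ← map_zpow]
  rfl

theorem RedSer.twist {x : LaurentSeries L} {z : LaurentSeries (ResidueField A)}
    (h : RedSer A x z) (c : Lˣ) (u : Aˣ) (hu : ((u : A) : L) = c)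
    (hres : residue A (u : A) = 1) : RedSer A (ModPoly.twist c x) z := by
  obtain ⟨a, b, hb, h1, h2⟩ := h
  have e1 : Units.map (A.subtype : A →* L) u = c := Units.ext hu
  have e2 : Units.map (residue A : A →* ResidueField A) u = 1 := Units.ext hres
  refine ⟨ModPoly.twist u a, ModPoly.twist u b, ?_, ?_, ?_⟩
  · rw [coeffMap_twist, e2, twist_one_unit]; exact hb
  · rw [coeffMap_twist, coeffMap_twist, e1, ← map_mul, h1]
  · rw [coeffMap_twist, coeffMap_twist, e2, twist_one_unit, twist_one_unit, h2]

/-- In characteristic `p`, `z ^ p` is the coefficientwise Frobenius of `z`, at `q ^ p`. -/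
theorem pow_char_eq_qExpand {k : Type*} [Field k] (p : ℕ) [hp : Fact p.Prime] [CharP k p]
    (z : LaurentSeries k) :
    haveI : NeZero p := ⟨hp.out.ne_zero⟩
    z ^ p = ModularCurve.qExpand k p (coeffMap (frobenius k p) z) := by
  haveI : NeZero p := ⟨hp.out.ne_zero⟩
  haveI : ExpChar k p := ExpChar.prime hp.out
  have hps : ∀ u : PowerSeries k,
      PowerSeries.map (frobenius k p) (PowerSeries.expand p (NeZero.ne p) u) = u ^ p := fun u =>
    MvPowerSeries.map_frobenius_expand p (NeZero.ne p) (f := (u : MvPowerSeries Unit k))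
  have hof : ∀ u : PowerSeries k, coeffMap (frobenius k p) (HahnSeries.ofPowerSeries ℤ k u)
      = HahnSeries.ofPowerSeries ℤ k (PowerSeries.map (frobenius k p) u) := fun u => by
    refine HahnSeries.ext (funext fun j => ?_)
    rcases le_or_gt 0 j with hj | hj
    · lift j to ℕ using hj; simp [HahnSeries.ofPowerSeries_apply_coeff]
    · simp [ofPowerSeries_coeff_of_neg _ hj]
  rw [← coeffMap_qExpand']
  conv_lhs => rw [← LaurentSeries.single_order_mul_powerSeriesPart z]
  conv_rhs => rw [← LaurentSeries.single_order_mul_powerSeriesPart z]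
  rw [map_mul, map_mul, mul_pow, qExpand_single, coeffMap_single, frobenius_def, one_pow,
    HahnSeries.single_pow, one_pow, qExpand_ofPowerSeries, hof, hps, map_pow, nsmul_eq_mul]

end FLTAgent.DS
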