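import Fermat.Agent.DS.ModRep.Classes
import Fermat.Agent.DS.FiniteImage
import Fermat.Agent.GalRep.TwoDim
import Fermat.Agent.Periods.Structure
import Mathlib.FieldTheory.IntermediateField.Adjoin.Basic
import Fermat.Agent.DS.Density

/-!
# The representation cut out by an eigenclass
-/

set_option autoImplicit false

noncomputable section

namespace FLTAgent.DS

open ModularCurve AlgebraicCurve CongruenceSubgroup
open scoped MatrixGroups TensorProduct

local notation "Qbar" => AlgebraicClosure ℚ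
local notation "Γℚ" => AlgebraicClosure ℚ ≃ₐ[ℚ] AlgebraicClosure ℚ

/-- A number field can be enlarged to a Galois stable one. -/
theorem exists_normal_level (L : IntermediateField ℚ Qbar) [FiniteDimensional ℚ L] :
    ∃ L' : IntermediateField ℚ Qbar, FiniteDimensional ℚ L' ∧ L ≤ L' ∧
      ∀ τ : Γℚ, ∀ x ∈ L', τ x ∈ L' := by
  have : ∀ f : L →ₐ[ℚ] Qbar, FiniteDimensional ℚ f.fieldRange := fun f =>
    (AlgEquiv.ofInjectiveField f).toLinearEquiv.finiteDimensional
  refine ⟨⨆ f : L →ₐ[ℚ] Qbar, f.fieldRange,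
    IntermediateField.finiteDimensional_iSup_of_finite, ?_, fun τ x hx => ?_⟩
  · exact L.fieldRange_val.symm.le.trans (le_iSup (fun f : L →ₐ[ℚ] Qbar => f.fieldRange) L.val)
  · have h : (⨆ f : L →ₐ[ℚ] Qbar, f.fieldRange).map τ.toAlgHom
        ≤ ⨆ f : L →ₐ[ℚ] Qbar, f.fieldRange := by
      rw [IntermediateField.map_iSup]
      refine iSup_le fun f => ?_
      rw [AlgHom.map_fieldRange]
      exact le_iSup (fun f : L →ₐ[ℚ] Qbar => f.fieldRange) (τ.toAlgHom.comp f)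
    exact h ⟨x, hx, rfl⟩

/-- Functions on Galois elements that only depend on the values on a number field. -/
theorem finite_range_of_level {X : Type*} (f : Γℚ → X) (L : IntermediateField ℚ Qbar)
    [FiniteDimensional ℚ L] (h : ∀ σ τ : Γℚ, (∀ x ∈ L, σ x = τ x) → f σ = f τ) :
    (Set.range f).Finite := by
  classical
  let r : Γℚ → (L →ₐ[ℚ] Qbar) := fun σ => σ.toAlgHom.comp L.val
  refine Set.Finite.subset (Set.finite_range fun t : L →ₐ[ℚ] Qbar =>
    if ht : ∃ σ, r σ = t then f ht.choose else f 1) ?_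
  rintro _ ⟨σ, rfl⟩
  refine ⟨r σ, ?_⟩
  have hex : ∃ τ, r τ = r σ := ⟨σ, rfl⟩
  dsimp only
  rw [dif_pos hex]
  exact h _ _ fun x hx => DFunLike.congr_fun hex.choose_spec ⟨x, hx⟩

variable {M : ℕ} [NeZero M] {ℓ : ℕ}

theorem gamma1_fg (M : ℕ) [NeZero M] : Group.FG (Gamma1 M) :=
  haveI := Periods.sl2z_fg
  Subgroup.fg_of_index_ne_zero (Gamma1 M)

theorem exists_lowerRight_unit (u : (ZMod M)ˣ) :
    ∃ γ : SL(2, ℤ), γ ∈ Gamma0 M ∧ ((γ 1 1 : ℤ) : ZMod M) = u := by
  obtain ⟨a, b, hab⟩ : IsCoprime ((u : ZMod M).val : ℤ) (M : ℤ) :=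
    Nat.isCoprime_iff_coprime.2 ((ZMod.isUnit_iff_coprime _ _).1 (by
      rw [ZMod.natCast_zmod_val]; exact u.isUnit))
  refine ⟨⟨!![a, -b; (M : ℤ), ((u : ZMod M).val : ℤ)], by
    rw [Matrix.det_fin_two_of]; linarith⟩, Gamma0_mem.2 (by simp), ?_⟩
  simp

variable (k : Type) [Field k] [Algebra (ZMod ℓ) k]

/-- Galois on classes with coefficients. -/
def galK : Γℚ →* Module.End k (k ⊗[ZMod ℓ] UnitsModPow M ℓ) where
  toFun σ := ((galCls (M := M) (ℓ := ℓ) σ).toZModLinearMap ℓ).baseChange k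
  map_one' := TensorProduct.AlgebraTensorModule.ext fun t u => by
    rw [LinearMap.baseChange_tmul, Module.End.one_apply]
    exact congrArg _ (galCls_one u)
  map_mul' σ τ := TensorProduct.AlgebraTensorModule.ext fun t u => by
    rw [LinearMap.baseChange_tmul, Module.End.mul_apply, LinearMap.baseChange_tmul,
      LinearMap.baseChange_tmul]
    exact congrArg _ (galCls_mul σ τ u)

variable {k}

theorem galK_apply (σ : Γℚ) :
    galK (M := M) (ℓ := ℓ) k σ = ((galCls (M := M) (ℓ := ℓ) σ).toZModLinearMap ℓ).baseChange k := rfl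

theorem evCls_galK [Fact ℓ.Prime] (π : k →ₗ[ZMod ℓ] ZMod ℓ) (σ : Γℚ)
    (w : k ⊗[ZMod ℓ] UnitsModPow M ℓ) : evCls π (galK k σ w) = galCls σ (evCls π w) :=
  evCls_baseChange π _ w

theorem evCls_natCast_smul [Fact ℓ.Prime] {U : Type*} [AddCommGroup U] [Module (ZMod ℓ) U]
    (π : k →ₗ[ZMod ℓ] ZMod ℓ) (n : ℕ) (w : k ⊗[ZMod ℓ] U) :
    evCls π ((n : k) • w) = n • evCls π w := by
  rw [Nat.cast_smul_eq_nsmul, map_nsmul]

theorem baseChange_relation [Fact ℓ.Prime] {U : Type*} [AddCommGroup U] [Module (ZMod ℓ) U]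
    (G H : U →ₗ[ZMod ℓ] U) (w : k ⊗[ZMod ℓ] U) (a z : k) (p : ℕ)
    (h : ∀ π : k →ₗ[ZMod ℓ] ZMod ℓ,
      G (H (evCls (π.comp (LinearMap.mulLeft (ZMod ℓ) a)) w))
        = G (G (H (evCls π w))) + p • H (evCls (π.comp (LinearMap.mulLeft (ZMod ℓ) z)) w)) :
    a • G.baseChange k (H.baseChange k w)
      = G.baseChange k (G.baseChange k (H.baseChange k w)) + ((p : k) * z) • H.baseChange k w := by
  refine ext_evCls fun π => ?_
  rw [map_add, mul_smul, evCls_natCast_smul, evCls_smul, evCls_smul]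
  simp only [evCls_baseChange]
  exact h π

theorem relation_inv {W : Type*} [AddCommGroup W] [Module k W] (r : Γℚ →* Module.End k W) (σ : Γℚ)
    (x : W) (a e : k) (h : a • r σ x = r σ (r σ x) + e • x) :
    r σ x + e • r σ⁻¹ x = a • x := by
  have hinv : ∀ y : W, r σ⁻¹ (r σ y) = y := fun y => by
    rw [← Module.End.mul_apply, ← map_mul, inv_mul_cancel, map_one, Module.End.one_apply]
  have h' := congrArg (r σ⁻¹) h
  rw [map_smul, map_add, map_smul, hinv, hinv] at h'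
  exact h'.symm

section Abstract

variable {W : Type} [AddCommGroup W] [Module k W]

/-- A two-dimensional representation from a vector of finite level, with the relation at the
good primes. -/
theorem exists_rep_of_vector [IsAlgClosed k] (r : Γℚ →* Module.End k W) (w0 : W) (hw0 : w0 ≠ 0)
    (L₀ : IntermediateField ℚ Qbar) [FiniteDimensional ℚ L₀]
    (hfix₀ : ∀ σ : Γℚ, (∀ x ∈ L₀, σ x = x) → r σ w0 = w0)
    (P : Set ℕ) (S₀ : Finset ℕ) (hP : ∀ p : ℕ, p.Prime → p ∉ S₀ → p ∈ P)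
    (a : ℕ → k) (e : Γℚ →* kˣ) (hef : GaloisFactorsThroughFiniteLevel e)
    (hine : ∀ p ∈ P, ∀ A : ValuationSubring Qbar, A.LiesOverPrime p →
      ∀ σ ∈ A.inertiaSubgroupIn ℚ, e σ = 1 ∧ ∀ τ : Γℚ, r σ (r τ w0) = r τ w0)
    (hfrob : ∀ p ∈ P, ∀ A : ValuationSubring Qbar, A.LiesOverPrime p →
      ∀ σ : Γℚ, A.IsFrobeniusAt σ p → ∀ τ : Γℚ,
        r σ (r τ w0) + (e σ : k) • r σ⁻¹ (r τ w0) = a p • r τ w0) :
    ∃ ρ : Γℚ →* GL (Fin 2) k, GaloisFactorsThroughFiniteLevel ρ ∧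
      ∀ p ∈ P, ∀ A : ValuationSubring Qbar, A.LiesOverPrime p →
        (∀ σ ∈ A.inertiaSubgroupIn ℚ, ρ σ = 1) ∧
        ∀ σ : Γℚ, A.IsFrobeniusAt σ p →
          (ρ σ : Matrix (Fin 2) (Fin 2) k).trace = a p ∧
          (ρ σ : Matrix (Fin 2) (Fin 2) k).det = (e σ : k) := by
  classical
  obtain ⟨L, hL, hLle, hLn⟩ := exists_normal_level L₀
  have hfix : ∀ σ : Γℚ, (∀ x ∈ L, σ x = x) → ∀ τ : Γℚ, r σ (r τ w0) = r τ w0 := by
    intro σ hσ τ
    have h1 : r (τ⁻¹ * σ * τ) w0 = w0 := hfix₀ _ fun x hx => by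
      rw [AlgEquiv.mul_apply, AlgEquiv.mul_apply, hσ _ (hLn τ x (hLle hx))]
      exact τ.symm_apply_apply x
    rw [← Module.End.mul_apply, ← map_mul, show σ * τ = τ * (τ⁻¹ * σ * τ) by group, map_mul,
      Module.End.mul_apply, h1]
  have hfin : (Set.range fun τ : Γℚ => r τ w0).Finite := by
    refine finite_range_of_level _ L fun σ τ h => ?_
    have h1 := hfix (τ * σ⁻¹) (fun x hx => by
      have hy : σ⁻¹ x ∈ L := hLn _ x hx
      rw [AlgEquiv.mul_apply, ← h _ hy]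
      exact σ.apply_symm_apply x) σ
    rw [← Module.End.mul_apply, ← map_mul, inv_mul_cancel_right] at h1
    exact h1.symm
  set E : Submodule k W := Submodule.span k (Set.range fun τ : Γℚ => r τ w0) with hE
  haveI : FiniteDimensional k E := FiniteDimensional.span_of_finite k hfin
  have hst : GalRep.IsStable r E := fun g v hv => by
    induction hv using Submodule.span_induction with
    | mem x hx =>
      obtain ⟨τ, rfl⟩ := hx
      refine Submodule.subset_span ⟨g * τ, ?_⟩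
      simp only [map_mul, Module.End.mul_apply]
    | zero => rw [map_zero]; exact zero_mem _
    | add x y _ _ hx hy => rw [map_add]; exact add_mem hx hy
    | smul c x _ hx => rw [map_smul]; exact E.smul_mem c hx
  have hw0E : w0 ∈ E := Submodule.subset_span ⟨1, by simp only [map_one, Module.End.one_apply]⟩
  haveI : Nontrivial E := nontrivial_of_ne ⟨w0, hw0E⟩ 0 fun h => hw0 (congrArg Subtype.val h)
  set rE := GalRep.restrictEnd r E hst with hrE
  have extE : ∀ f g : Module.End k E,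
      (∀ τ, f ⟨r τ w0, Submodule.subset_span ⟨τ, rfl⟩⟩
        = g ⟨r τ w0, Submodule.subset_span ⟨τ, rfl⟩⟩) → f = g := fun f g h => by
    refine LinearMap.ext fun v => ?_
    obtain ⟨v, hv⟩ := v
    induction hv using Submodule.span_induction with
    | mem x hx => obtain ⟨τ, rfl⟩ := hx; exact h τ
    | zero => exact (map_zero f).trans (map_zero g).symm
    | add x y hx hy h1 h2 =>
      exact (map_add f ⟨x, hx⟩ ⟨y, hy⟩).trans
        ((congrArg₂ (· + ·) h1 h2).trans (map_add g ⟨x, hx⟩ ⟨y, hy⟩).symm)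
    | smul c x hx h1 =>
      exact (map_smul f c ⟨x, hx⟩).trans ((congrArg (c • ·) h1).trans (map_smul g c ⟨x, hx⟩).symm)
  have hlocal : ∀ p ∈ P, ∀ A : ValuationSubring Qbar, A.LiesOverPrime p →
      (∀ σ ∈ A.inertiaSubgroupIn ℚ, rE σ = 1) ∧
      ∀ σ : Γℚ, A.IsFrobeniusAt σ p →
        rE σ + (e σ : k) • rE σ⁻¹ = a p • (1 : Module.End k E) := fun p hp A hA =>
    ⟨fun σ hσ => extE _ _ fun τ => Subtype.ext ((hine p hp A hA σ hσ).2 τ),
      fun σ hσ => extE _ _ fun τ => Subtype.ext (hfrob p hp A hA σ hσ τ)⟩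
  have hrf : GaloisFactorsThroughFiniteLevel rE :=
    ⟨L, hL, fun σ hσ => extE _ _ fun τ => Subtype.ext (hfix σ hσ τ)⟩
  set J : Γℚ →* (Module.End k E)ˣ × kˣ := rE.toHomUnits.prod e with hJ
  have hJf : GaloisFactorsThroughFiniteLevel J := by
    obtain ⟨L₁, hL₁, h1⟩ := hrf
    obtain ⟨L₂, hL₂, h2⟩ := hef
    haveI := hL₁; haveI := hL₂
    exact ⟨L₁ ⊔ L₂, inferInstance, fun σ hσ => Prod.ext
      (Units.ext (h1 σ fun x hx => hσ x ((le_sup_left : L₁ ≤ L₁ ⊔ L₂) hx)))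
      (h2 σ fun x hx => hσ x ((le_sup_right : L₂ ≤ L₁ ⊔ L₂) hx))⟩
  haveI := finite_range_of_factors hJf
  letI : Fintype J.range := Fintype.ofFinite _
  have hall : ∀ g : Γℚ, ∃ t : k, rE g + (e g : k) • rE g⁻¹ = t • (1 : Module.End k E) := by
    intro g
    have hJf' : GaloisFactorsThroughFiniteLevel J.rangeRestrict := by
      obtain ⟨L₁, hL₁, h⟩ := hJf
      exact ⟨L₁, hL₁, fun σ hσ => Subtype.ext (h σ hσ)⟩
    obtain ⟨p, hp, hp0, A, hA, σ, hσ, hconj⟩ := frobeniusDensity.exists_isConj J.rangeRestrict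
      (MonoidHom.rangeRestrict_surjective J) hJf' (J.rangeRestrict g) S₀
    obtain ⟨q, hq⟩ := isConj_iff.1 hconj
    have h1 : q.1.1 * rE.toHomUnits g * q.1.1⁻¹ = rE.toHomUnits σ :=
      congrArg (fun z : J.range => z.1.1) hq
    have h2 : e g = e σ := by
      have := congrArg (fun z : J.range => z.1.2) hq
      simpa [J, mul_comm q.1.2] using this
    have e1 : rE.toHomUnits g = q.1.1⁻¹ * rE.toHomUnits σ * q.1.1 := by
      rw [← h1]; group
    have e2 : rE.toHomUnits g⁻¹ = q.1.1⁻¹ * rE.toHomUnits σ⁻¹ * q.1.1 := by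
      rw [map_inv, map_inv, e1]; group
    refine ⟨a p, ?_⟩
    rw [show rE g = (rE.toHomUnits g : Module.End k E) from rfl,
      show rE g⁻¹ = (rE.toHomUnits g⁻¹ : Module.End k E) from rfl, e1, e2, h2]
    simp only [Units.val_mul, MonoidHom.coe_toHomUnits]
    rw [← smul_mul_assoc, ← add_mul, ← mul_smul_comm, ← mul_add,
      (hlocal p (hP p hp hp0) A hA).2 σ hσ, mul_smul_comm, mul_one, smul_mul_assoc, Units.inv_mul]
  choose τ hτ using hall
  obtain ⟨ρ, htr, hdet, hker⟩ := GalRep.exists_matrixRep_of_relation rE e τ hτ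
  refine ⟨ρ.toHomUnits, ?_, fun p hp A hA => ⟨fun σ hσ => ?_, fun σ hσ => ⟨?_, hdet σ⟩⟩⟩
  · obtain ⟨L₁, hL₁, h⟩ := hJf
    exact ⟨L₁, hL₁, fun σ hσ => Units.ext (hker σ
      (congrArg (fun z : (Module.End k E)ˣ × kˣ => (z.1 : Module.End k E)) (h σ hσ))
      (congrArg Prod.snd (h σ hσ)))⟩
  · exact Units.ext (hker σ ((hlocal p hp A hA).1 σ hσ) (hine p hp A hA σ hσ).1)
  · rw [MonoidHom.coe_toHomUnits, htr σ]
    obtain ⟨v, hv⟩ := exists_ne (0 : E)
    have := (hτ σ).symm.trans ((hlocal p hp A hA).2 σ hσ)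
    exact smul_left_injective k hv (LinearMap.congr_fun this v)

end Abstract

attribute [local irreducible] galK evCls

variable [hℓ : Fact ℓ.Prime] {D : DiamondData M} (F : CharClassFacts D ℓ)
  {c : Additive (Gamma1 M) →+ k} {hcp : Period.IsParabolicHom (Gamma1 M) c}
  {w0 : k ⊗[ZMod ℓ] UnitsModPow M ℓ}

include F in
/-- The class with coefficients has finite level. -/
theorem exists_level_coeffClass
    (hw0 : ∀ π : k →ₗ[ZMod ℓ] ZMod ℓ, evCls π w0 = classHom F (coordHom c hcp π)) :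
    ∃ L₀ : IntermediateField ℚ Qbar, FiniteDimensional ℚ L₀ ∧
      ∀ σ : Γℚ, (∀ x ∈ L₀, σ x = x) → galK k σ w0 = w0 := by
  classical
  set b := Module.Free.chooseBasis (ZMod ℓ) k
  obtain ⟨t, ht⟩ := exists_coeff_support (gamma1_fg M) b c
  obtain ⟨L₀, hL₀, hfix⟩ := GalRep.exists_common_level t
    (fun i σ => galOne M σ (classUnit F (coordHom c hcp (b.coord i)) : K1 M)
      = classUnit F (coordHom c hcp (b.coord i)))
    (fun i _ => GalRep.exists_level_function (fieldOne M) _)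
  refine ⟨L₀, hL₀, fun σ hσ => ext_evCls fun π => ?_⟩
  rw [evCls_galK, hw0]
  have hsum : coordHom c hcp π = ∑ i ∈ t, π (b i) • coordHom c hcp (b.coord i) := by
    refine Subtype.ext (AddMonoidHom.ext fun x => ?_)
    rw [Submodule.coe_sum, AddMonoidHom.finsetSum_apply]
    show π (c x) = ∑ i ∈ t, π (b i) * b.coord i (c x)
    conv_lhs => rw [ht x, map_sum]
    exact Finset.sum_congr rfl fun i _ => by
      rw [map_smul, smul_eq_mul, Module.Basis.coord_apply, mul_comm]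
  rw [hsum, map_sum, map_sum]
  refine Finset.sum_congr rfl fun i hi => ?_
  rw [map_smul, ZMod.map_smul (galCls σ), classHom_apply, galCls_powClass]
  exact congrArg _ (congrArg _ (Units.ext (hfix σ hσ i hi)))

include F in
/-- Inertia at a prime of good reduction fixes the translates of the class. -/
theorem galK_inertia {A : ValuationSubring Qbar} (R : ReductionFacts D A)
    (hℓA : (ℓ : IsLocalRing.ResidueField A) ≠ 0) {σ : Γℚ} (hσ : σ ∈ A.inertiaSubgroupIn ℚ)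
    (hw0 : ∀ π : k →ₗ[ZMod ℓ] ZMod ℓ, evCls π w0 = classHom F (coordHom c hcp π)) (τ : Γℚ) :
    galK k σ (galK k τ w0) = galK k τ w0 := by
  refine ext_evCls fun π => ?_
  rw [evCls_galK, evCls_galK, hw0, classHom_apply, galCls_powClass τ]
  exact galCls_inertia R hℓA hσ _ ((classUnit_spec F _).1.map_galOne τ)

include F in
set_option maxHeartbeats 2000000 in
/-- The relation of Eichler and Shimura on the translates of the class. -/
theorem galK_relation (hT : HeckeFacts D) {p : ℕ} [NeZero p] (hp : p.Prime) (hpM : p.Coprime M)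
    {A : ValuationSubring Qbar} (hA : A.LiesOverPrime p) (R : ReductionFacts D A)
    (hℓA : (ℓ : IsLocalRing.ResidueField A) ≠ 0) {σ : Γℚ} (hσ : A.IsFrobeniusAt σ p)
    (hw0 : ∀ π : k →ₗ[ZMod ℓ] ZMod ℓ, evCls π w0 = classHom F (coordHom c hcp π))
    (a z : k)
    (hcd : ∀ γ : SL(2, ℤ), γ ∈ Gamma0 M → ((γ 1 1 : ℤ) : ZMod M) = ZMod.unitOfCoprime p hpM →
      ∀ x y : Gamma1 M, (y : SL(2, ℤ)) = γ * (x : SL(2, ℤ)) * γ⁻¹ →
        c (Additive.ofMul y) = z * c (Additive.ofMul x))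
    (hcT : IsHeckeImageOne p c ((AddMonoidHom.mulLeft a).comp c)) (τ : Γℚ) :
    galK k σ (galK k τ w0) + ((p : k) * z) • galK k σ⁻¹ (galK k τ w0) = a • galK k τ w0 := by
  obtain ⟨γ, hγ, hγu⟩ := exists_lowerRight_unit (ZMod.unitOfCoprime p hpM)
  refine relation_inv (galK k) σ _ a _ ?_
  rw [galK_apply, galK_apply]
  refine baseChange_relation _ _ w0 a z p fun π => ?_
  rw [hw0, hw0, hw0]
  simp only [AddMonoidHom.coe_toZModLinearMap]
  set d := coordHom c hcp π
  have hH : IsHeckeImageOne p d.1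
      (coordHom c hcp (π.comp (LinearMap.mulLeft (ZMod ℓ) a))).1 := by
    intro γp h0 h1 g
    obtain ⟨σ', δ, hrel, hsum⟩ := hcT γp h0 h1 g
    refine ⟨σ', δ, hrel, ?_⟩
    show π (a * c (Additive.ofMul g)) = ∑ i, π (c (Additive.ofMul (δ i)))
    rw [← map_sum π, ← hsum]; rfl
  have hdia : diaCls D (ZMod.unitOfCoprime p hpM) (classHom F d)
      = classHom F (coordHom c hcp (π.comp (LinearMap.mulLeft (ZMod ℓ) z))) :=
    diaCls_classHom F _ hγ hγu d _ fun x y hxy => by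
      show π (z * c (Additive.ofMul x)) = π (c (Additive.ofMul y))
      rw [hcd γ hγ hγu x y hxy]
  rw [← hdia, ← heckeCls_classHom F hT hp hpM d _ hH, ← diaCls_galCls, classHom_apply]
  exact galCls_hecke_eq R hp hA hℓA hpM hσ
    (Units.map (galOne M τ : K1 M →* K1 M) (classUnit F d))
    (Units.map (galOne M τ : K1 M →* K1 M) (TUnit D hT hp hpM (classUnit F d)))
    ((isTImage_TUnit hT hp hpM _).galOne τ)
    ((classUnit_spec F d).1.map_galOne τ)
    ((dvdDiv_TUnit_classUnit F hT hp hpM d _ hH).map_galOne τ)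

include F in
set_option maxHeartbeats 2000000 in
/-- **The representation attached to an eigenclass.** -/
theorem exists_rep_of_eigen [IsAlgClosed k] (hT : HeckeFacts D) (P : Set ℕ) (S₀ : Finset ℕ)
    (hP : ∀ p : ℕ, p.Prime → p ∉ S₀ → p ∈ P)
    (hPM : ∀ p ∈ P, p.Prime ∧ p.Coprime M ∧ p ≠ ℓ)
    (hR : ∀ p ∈ P, ∀ A : ValuationSubring Qbar, A.LiesOverPrime p → ReductionFacts D A)
    (a : ℕ → k) (ψ : (ZMod M)ˣ → k) (e : Γℚ →* kˣ) (hef : GaloisFactorsThroughFiniteLevel e)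
    (he : ∀ p ∈ P, ∀ hpM : p.Coprime M, ∀ A : ValuationSubring Qbar, A.LiesOverPrime p →
      (∀ σ ∈ A.inertiaSubgroupIn ℚ, e σ = 1) ∧
      ∀ σ : Γℚ, A.IsFrobeniusAt σ p → (e σ : k) = p * ψ (ZMod.unitOfCoprime p hpM))
    (c : Additive (Gamma1 M) →+ k) (hc0 : c ≠ 0) (hcp : Period.IsParabolicHom (Gamma1 M) c)
    (hcd : ∀ (u : (ZMod M)ˣ) (γ : SL(2, ℤ)), γ ∈ Gamma0 M → ((γ 1 1 : ℤ) : ZMod M) = u →
      ∀ x y : Gamma1 M, (y : SL(2, ℤ)) = γ * (x : SL(2, ℤ)) * γ⁻¹ →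
        c (Additive.ofMul y) = ψ u * c (Additive.ofMul x))
    (hcT : ∀ p ∈ P, ∀ hp : p.Prime, haveI : NeZero p := ⟨hp.ne_zero⟩
      IsHeckeImageOne p c ((AddMonoidHom.mulLeft (a p)).comp c)) :
    ∃ ρ : Γℚ →* GL (Fin 2) k, GaloisFactorsThroughFiniteLevel ρ ∧
      ∀ p ∈ P, ∀ A : ValuationSubring Qbar, A.LiesOverPrime p →
        (∀ σ ∈ A.inertiaSubgroupIn ℚ, ρ σ = 1) ∧
        ∀ σ : Γℚ, A.IsFrobeniusAt σ p →
          (ρ σ : Matrix (Fin 2) (Fin 2) k).trace = a p ∧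
          (ρ σ : Matrix (Fin 2) (Fin 2) k).det = (e σ : k) := by
  obtain ⟨w0, hw0⟩ := exists_coeffClass F (gamma1_fg M) c hcp
  have hw0ne : w0 ≠ 0 := by
    intro h0
    refine hc0 (AddMonoidHom.ext fun x => ?_)
    refine (Module.forall_dual_apply_eq_zero_iff (ZMod ℓ) (c x)).1 fun π => ?_
    have h := hw0 π
    rw [h0, map_zero] at h
    have h' : coordHom c hcp π = 0 := classHom_injective F (h.symm.trans (map_zero _).symm)
    exact DFunLike.congr_fun (congrArg Subtype.val h') x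
  obtain ⟨L₀, hL₀, hfix₀⟩ := exists_level_coeffClass F hw0
  have hres : ∀ p ∈ P, ∀ A : ValuationSubring Qbar, A.LiesOverPrime p →
      (ℓ : IsLocalRing.ResidueField A) ≠ 0 := fun p hp A hA =>
    GalRep.residue_natCast_ne_zero hA
      ((Nat.coprime_primes hℓ.out (hPM p hp).1).2 (hPM p hp).2.2.symm)
  refine exists_rep_of_vector (galK k) w0 hw0ne L₀ hfix₀ P S₀ hP a e hef
    (fun p hp A hA σ hσ => ⟨(he p hp (hPM p hp).2.1 A hA).1 σ hσ,
      galK_inertia F (hR p hp A hA) (hres p hp A hA) hσ hw0⟩)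
    (fun p hp A hA σ hσ τ => ?_)
  obtain ⟨hpp, hpM, -⟩ := hPM p hp
  haveI : NeZero p := ⟨hpp.ne_zero⟩
  rw [(he p hp hpM A hA).2 σ hσ]
  exact galK_relation F hT hpp hpM hA (hR p hp A hA) (hres p hp A hA) hσ hw0 _ _
    (hcd _) (hcT p hp hpp) τ

end FLTAgent.DS
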