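import Fermat.Agent.DS.ModRep.Reduce
import Fermat.Agent.FunctionField.PlaceBasic
import Fermat.Agent.GalRep.OpenStab

/-!
# Operators on the units of `K1` modulo `ℓ`-th powers
-/

set_option autoImplicit false

noncomputable section

namespace FLTAgent.DS

open ModularCurve AlgebraicCurve
open FLTAgent.ModPoly

local notation "Qbar" => AlgebraicClosure ℚ
local notation "Γℚ" => AlgebraicClosure ℚ ≃ₐ[ℚ] AlgebraicClosure ℚ

variable {M : ℕ} [NeZero M] {ℓ : ℕ}

/-- The group structure on classes. -/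
instance instAddCommGroupUnitsModPow : AddCommGroup (UnitsModPow M ℓ) :=
  Additive.addCommGroup

/-! ### Divisors divisible by `ℓ` -/

theorem DvdDiv.mul {x y : K1 M} (hx : DvdDiv ℓ x) (hy : DvdDiv ℓ y) (hx0 : x ≠ 0) (hy0 : y ≠ 0) :
    DvdDiv ℓ (x * y) := fun v => by rw [v.ord_mul hx0 hy0]; exact dvd_add (hx v) (hy v)

theorem DvdDiv.inv {x : K1 M} (hx : DvdDiv ℓ x) : DvdDiv ℓ x⁻¹ := fun v => by
  rw [v.ord_inv]; exact (hx v).neg_right

theorem dvdDiv_pow_self (x : K1 M) : DvdDiv ℓ (x ^ ℓ) := fun v => by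
  rw [← zpow_natCast, v.ord_zpow]; exact dvd_mul_right _ _

theorem DvdDiv.pow {x : K1 M} (hx : DvdDiv ℓ x) (n : ℕ) : DvdDiv ℓ (x ^ n) := fun v => by
  rw [← zpow_natCast, v.ord_zpow]; exact (hx v).mul_left _

theorem dvdDiv_algebraMap (c : Qbar) : DvdDiv ℓ (algebraMap Qbar (K1 M) c) := fun v => by
  rw [FLTAgent.FunctionField.ord_algebraMap]; exact dvd_zero _

theorem DvdDiv.map_galOne {x : K1 M} (hx : DvdDiv ℓ x) (σ : Γℚ) : DvdDiv ℓ (galOne M σ x) :=
  fun v => by
  have h := SemilinearAut.ord_smul (arithmeticGalois (fieldOne M) σ)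
    ((arithmeticGalois (fieldOne M) σ)⁻¹ • v) x
  rw [smul_inv_smul] at h
  rw [show galOne M σ x = arithmeticGalois (fieldOne M) σ • x from rfl, h]
  exact hx _

theorem DvdDiv.map_algEquiv {x : K1 M} (hx : DvdDiv ℓ x) (e : K1 M ≃ₐ[Qbar] K1 M) :
    DvdDiv ℓ (e x) := fun v => by
  have h := SemilinearAut.ord_smul (SemilinearAut.ofAlgAut e)
    ((SemilinearAut.ofAlgAut e)⁻¹ • v) x
  rw [smul_inv_smul] at h
  rw [show e x = SemilinearAut.ofAlgAut e • x from rfl, h]
  exact hx _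

/-! ### Classes -/

theorem powClass_mul (x y : (K1 M)ˣ) : powClass ℓ (x * y) = powClass ℓ x + powClass ℓ y := rfl

theorem powClass_one : powClass ℓ (1 : (K1 M)ˣ) = 0 := rfl

theorem powClass_inv (x : (K1 M)ˣ) : powClass ℓ x⁻¹ = -powClass ℓ x := rfl

theorem powClass_pow (x : (K1 M)ˣ) (n : ℕ) : powClass ℓ (x ^ n) = n • powClass ℓ x := by
  induction n with
  | zero => rw [pow_zero, zero_nsmul, powClass_one]
  | succ n ih => rw [pow_succ, powClass_mul, ih, succ_nsmul]

theorem powClass_eq_zero_iff {x : (K1 M)ˣ} :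
    powClass ℓ x = 0 ↔ ∃ u : (K1 M)ˣ, u ^ ℓ = x := by
  rw [show (0 : UnitsModPow M ℓ) = Additive.ofMul 1 from rfl, powClass,
    Additive.ofMul.injective.eq_iff, QuotientGroup.eq_one_iff]
  exact Iff.rfl

theorem powClass_eq_zero_of_pow {x : (K1 M)ˣ} (hℓ : ℓ ≠ 0) {u : K1 M}
    (hu : (x : K1 M) = u ^ ℓ) : powClass ℓ x = 0 := by
  have hu0 : u ≠ 0 := fun h => x.ne_zero (by rw [hu, h, zero_pow hℓ])
  exact powClass_eq_zero_iff.2 ⟨Units.mk0 u hu0, Units.ext (by simpa using hu.symm)⟩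

theorem powClass_surjective (v : UnitsModPow M ℓ) : ∃ x : (K1 M)ˣ, powClass ℓ x = v := by
  obtain ⟨x, hx⟩ := QuotientGroup.mk_surjective (Additive.toMul v)
  exact ⟨x, by rw [powClass, hx]; rfl⟩

theorem nsmul_eq_zero' (v : UnitsModPow M ℓ) : ℓ • v = 0 := by
  obtain ⟨x, rfl⟩ := powClass_surjective v
  rw [← powClass_pow]
  exact powClass_eq_zero_iff.2 ⟨x, rfl⟩

/-- An endomorphism of the units acting on classes. -/
def onClasses (φ : (K1 M)ˣ →* (K1 M)ˣ) : UnitsModPow M ℓ →+ UnitsModPow M ℓ :=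
  MonoidHom.toAdditive (QuotientGroup.map _ _ φ (by
    rintro _ ⟨u, rfl⟩; exact ⟨φ u, (map_pow φ u ℓ).symm⟩))

@[simp] theorem onClasses_powClass (φ : (K1 M)ˣ →* (K1 M)ˣ) (x : (K1 M)ˣ) :
    onClasses φ (powClass ℓ x) = powClass ℓ (φ x) := rfl

/-- Galois on classes. -/
def galCls (σ : Γℚ) : UnitsModPow M ℓ →+ UnitsModPow M ℓ :=
  onClasses (Units.map (galOne M σ : K1 M →* K1 M))

theorem galCls_powClass (σ : Γℚ) (x : (K1 M)ˣ) :
    galCls σ (powClass ℓ x) = powClass ℓ (Units.map (galOne M σ : K1 M →* K1 M) x) := rfl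

theorem coe_galOne (σ : Γℚ) (x : K1 M) :
    (galOne M σ x : LaurentSeries Qbar) = coeffMap (σ : Qbar →+* Qbar) (x : LaurentSeries Qbar) :=
  coe_arithmeticRingAut_apply _ _ _

theorem galOne_mul_apply (σ τ : Γℚ) (x : K1 M) :
    galOne M (σ * τ) x = galOne M σ (galOne M τ x) := by
  refine Subtype.ext ?_
  rw [coe_galOne, coe_galOne, coe_galOne, coeffMap_coeffMap]
  exact coeffMap_congr (RingHom.ext fun _ => rfl) _

theorem galOne_one_apply (x : K1 M) : galOne M 1 x = x := by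
  refine Subtype.ext ?_
  rw [coe_galOne]
  exact (coeffMap_congr (g := RingHom.id Qbar) (RingHom.ext fun _ => rfl) _).trans (coeffMap_id _)

theorem galCls_mul (σ τ : Γℚ) (v : UnitsModPow M ℓ) :
    galCls (σ * τ) v = galCls σ (galCls τ v) := by
  obtain ⟨x, rfl⟩ := powClass_surjective v
  rw [galCls_powClass, galCls_powClass, galCls_powClass]
  exact congrArg _ (Units.ext (galOne_mul_apply σ τ _))

theorem galCls_one (v : UnitsModPow M ℓ) : galCls 1 v = v := by
  obtain ⟨x, rfl⟩ := powClass_surjective v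
  rw [galCls_powClass]
  exact congrArg _ (Units.ext (galOne_one_apply _))

variable (D : DiamondData M)

/-- Diamonds on classes. -/
def diaCls (u : (ZMod M)ˣ) : UnitsModPow M ℓ →+ UnitsModPow M ℓ :=
  onClasses (Units.map (D.dia u : K1 M →* K1 M))

theorem diaCls_galCls (u : (ZMod M)ˣ) (σ : Γℚ) (v : UnitsModPow M ℓ) :
    diaCls D u (galCls σ v) = galCls σ (diaCls D u v) := by
  obtain ⟨x, rfl⟩ := powClass_surjective v
  exact congrArg (powClass ℓ) (Units.ext (D.dia_galOne u σ _))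

/-! ### The Hecke operator -/

variable {D} {p : ℕ} [NeZero p] {hpM : p.Coprime M}

theorem exists_primitive_unit (p : ℕ) [NeZero p] : ∃ ζ : Qbarˣ, IsPrimitiveRoot ζ p := by
  obtain ⟨z, hz⟩ := HasEnoughRootsOfUnity.exists_primitiveRoot Qbar p
  exact ⟨(hz.isUnit (NeZero.ne p)).unit, hz.isUnit_unit (NeZero.ne p)⟩

theorem IsTImage.unique {x y y' : K1 M} (h : IsTImage D p hpM x y) (h' : IsTImage D p hpM x y') :
    y = y' := by
  obtain ⟨ζ, hζ⟩ := exists_primitive_unit p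
  exact Subtype.ext (qExpand_injective p ((h ζ hζ).trans (h' ζ hζ).symm))

theorem IsTImage.ne_zero {x y : K1 M} (h : IsTImage D p hpM x y) (hx : x ≠ 0) : y ≠ 0 := by
  obtain ⟨ζ, hζ⟩ := exists_primitive_unit p
  intro hy
  have e := (h ζ hζ).symm
  rw [hy, ZeroMemClass.coe_zero, map_zero, mul_eq_zero] at e
  rcases e with e | e
  · rw [twistProd, Finset.prod_eq_zero_iff] at e
    obtain ⟨j, -, hj⟩ := e
    refine hx (Subtype.ext ?_)
    have := congrArg (twist (ζ ^ j)⁻¹) hj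
    rwa [twist_twist, inv_mul_cancel, twist_one_unit, map_zero] at this
  · have e2 := qExpand_injective (R := Qbar) (p * p) (e.trans (map_zero _).symm)
    exact hx ((map_eq_zero (D.dia (ZMod.unitOfCoprime p hpM))).1 (Subtype.ext e2))

theorem IsTImage.one : IsTImage D p hpM 1 1 := fun ζ _ => by
  simp [twistProd]

theorem IsTImage.mul {x y x' y' : K1 M} (h : IsTImage D p hpM x y) (h' : IsTImage D p hpM x' y') :
    IsTImage D p hpM (x * x') (y * y') := fun ζ hζ => by
  rw [MulMemClass.coe_mul, map_mul, h ζ hζ, h' ζ hζ]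
  simp only [twistProd, MulMemClass.coe_mul, map_mul, Finset.prod_mul_distrib]
  ring

theorem IsTImage.galOne {x y : K1 M} (h : IsTImage D p hpM x y) (σ : Γℚ) :
    IsTImage D p hpM (galOne M σ x) (DS.galOne M σ y) := fun ζ hζ => by
  set s : Qbar →+* Qbar := (σ : Qbar →+* Qbar) with hs
  set ζ' : Qbarˣ := Units.map (σ.symm : Qbar →* Qbar) ζ with hζ'
  have hζ'p : IsPrimitiveRoot ζ' p := hζ.map_of_injective
    (f := Units.map (σ.symm : Qbar →* Qbar)) (Units.map_injective σ.symm.injective)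
  have hmap : Units.map (s : Qbar →* Qbar) ζ' = ζ := Units.ext (σ.apply_symm_apply _)
  have e := congrArg (coeffMap s) (h ζ' hζ'p)
  rw [coeffMap_qExpand', map_mul, coeffMap_qExpand', twistProd, map_prod] at e
  simp only [coeffMap_twist, map_pow, hmap] at e
  rw [D.dia_galOne]
  exact e

variable (D) in
/-- `T p` on units. -/
def TUnit (hT : HeckeFacts D) (hp : p.Prime) (hpM : p.Coprime M) : (K1 M)ˣ →* (K1 M)ˣ where
  toFun x := Units.mk0 (hT p hp hpM x).choose
    ((hT p hp hpM x).choose_spec.ne_zero x.ne_zero)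
  map_one' := Units.ext ((hT p hp hpM ((1 : (K1 M)ˣ) : K1 M)).choose_spec.unique IsTImage.one)
  map_mul' x x' := Units.ext ((hT p hp hpM ((x * x' : (K1 M)ˣ) : K1 M)).choose_spec.unique
    ((hT p hp hpM (x : K1 M)).choose_spec.mul (hT p hp hpM (x' : K1 M)).choose_spec))

theorem isTImage_TUnit (hT : HeckeFacts D) (hp : p.Prime) (hpM : p.Coprime M) (x : (K1 M)ˣ) :
    IsTImage D p hpM x (TUnit D hT hp hpM x) := (hT p hp hpM x).choose_spec

variable (D) in
/-- `T p` on classes. -/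
def heckeCls (hT : HeckeFacts D) (hp : p.Prime) (hpM : p.Coprime M) :
    UnitsModPow M ℓ →+ UnitsModPow M ℓ := onClasses (TUnit D hT hp hpM)

theorem heckeCls_galCls (hT : HeckeFacts D) (hp : p.Prime) (hpM : p.Coprime M) (σ : Γℚ)
    (v : UnitsModPow M ℓ) :
    heckeCls D hT hp hpM (galCls σ v) = galCls σ (heckeCls D hT hp hpM v) := by
  obtain ⟨x, rfl⟩ := powClass_surjective v
  exact congrArg (powClass ℓ) (Units.ext ((isTImage_TUnit hT hp hpM _).unique
    ((isTImage_TUnit hT hp hpM x).galOne σ)))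

end FLTAgent.DS
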